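/-
GAL block M, node M05: `n`-th roots of Laurent series over an algebraically closed field of
characteristic zero.  Owner: helper228.
-/
import Mathlib

set_option autoImplicit false

namespace Fermat.Agent.GAL.Mult

open PowerSeries in
/-- Powers of a binomial series. -/
theorem binomialSeries_pow {K : Type*} [Field K] [CharZero K] (r : K) (k : ℕ) :
    (binomialSeries K r) ^ k = binomialSeries K ((k : K) * r) := by
  induction k with
  | zero => simp
  | succ k ih =>
    rw [pow_succ, ih, ← binomialSeries_add]
    congr 1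
    push_cast
    ring

open PowerSeries in
/-- The formal `n`-th root of `1 + X`. -/
theorem binomialSeries_inv_pow {K : Type*} [Field K] [CharZero K] (n : ℕ) (hn : 0 < n) :
    (binomialSeries K ((n : K)⁻¹)) ^ n = 1 + X := by
  rw [binomialSeries_pow, mul_inv_cancel₀ (Nat.cast_ne_zero.2 hn.ne')]
  have := binomialSeries_nat (R := K) (A := K) 1
  simpa using this

/-- A one-unit of a Hahn series field of characteristic zero has an `n`-th root. -/
theorem exists_pow_eq_one_add {K : Type*} [Field K] [CharZero K] (n : ℕ) (hn : 0 < n)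
    (y : LaurentSeries K) (hy : 0 < y.orderTop) : ∃ r : LaurentSeries K, r ^ n = 1 + y := by
  refine ⟨PowerSeries.heval y (PowerSeries.binomialSeries K ((n : K)⁻¹)), ?_⟩
  rw [← map_pow, binomialSeries_inv_pow n hn, map_add, map_one, PowerSeries.heval_X y hy]

theorem exists_pow_eq_laurent {K : Type*} [Field K] [IsAlgClosed K] [CharZero K] (n : ℕ)
    (hn : 0 < n) (s : LaurentSeries K) (hs : s ≠ 0) (hord : (n : ℤ) ∣ s.order) :
    ∃ r : LaurentSeries K, r ^ n = s := by
  obtain ⟨k, hk⟩ := hord
  have ha : s.leadingCoeff ≠ 0 := HahnSeries.leadingCoeff_ne_zero.2 hs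
  obtain ⟨c, hc⟩ := IsAlgClosed.exists_pow_nat_eq s.leadingCoeff hn
  set u : LaurentSeries K := HahnSeries.single (-s.order) (s.leadingCoeff)⁻¹ * s with hu
  have hu1 : 0 < (u - 1).orderTop := by
    rw [HahnSeries.orderTop_self_sub_one_pos_iff]
    constructor
    · rw [hu, HahnSeries.orderTop_mul, HahnSeries.orderTop_single (inv_ne_zero ha),
        ← HahnSeries.order_eq_orderTop_of_ne_zero hs, ← WithTop.coe_add]
      simp
    · rw [hu, HahnSeries.leadingCoeff_mul, HahnSeries.leadingCoeff_of_single,
        inv_mul_cancel₀ ha]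
  obtain ⟨r, hr⟩ := exists_pow_eq_one_add n hn (u - 1) hu1
  refine ⟨HahnSeries.single k c * r, ?_⟩
  rw [mul_pow, hr, HahnSeries.single_pow, hc, add_sub_cancel, hu, ← mul_assoc,
    HahnSeries.single_mul_single, mul_inv_cancel₀ ha, hk]
  simp

end Fermat.Agent.GAL.Mult
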