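/-
Cluster GAL, block M (multiplier map), architect helper269.  Node M21a: the count (route 1):
`#Hom_{par,ell}(Γ₀(N), ℤ/n) ≤ #Pic⁰(X₀(N))[n]`, from S27 (`#Pic⁰[n] = n^{2g}`),
GenusBridge (`dim S₂ ≤ g`) and the count of `homPE` (S16).
-/
import Fermat.Agent.GAL.GenusBridge.Main
import Fermat.Agent.S27.General
import Fermat.Agent.S16.Lift.Count

set_option autoImplicit false

namespace Fermat.Agent.GAL.Mult

open AlgebraicCurve CongruenceSubgroup
open Fermat.Agent.S24 Fermat.Agent.S24.FF Fermat.Agent.S16.Lift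

theorem card_homPE_le_card_torsion (N n : ℕ) [NeZero N] (hn : 0 < n) :
    Nat.card (homPE N (ZMod n)) ≤ Nat.card (Pic0.torsion Kbar (FN N) n) := by
  have := Export.isFF1 N
  have : S27.NonConst Kbar (FN N) := ⟨⟨jF N, Formal.transcendental_jF N⟩⟩
  rw [card_homPE N n hn, S27.card_torsion_general Kbar (FN N) n hn]
  exact Nat.pow_le_pow_right hn
    (Nat.mul_le_mul_left 2 (GenusBridge.finrank_cuspForm_le_genusFF N))

end Fermat.Agent.GAL.Mult
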