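/-
Cluster GAL, block M (multiplier map), owner helper269.
The ring `Hol` of holomorphic functions on the upper half plane, its fraction field `MM`
(meromorphic functions), the action of `GL(2,ℝ)⁺`, and the local expansions.
-/
import Fermat.Agent.S24.B.Main

set_option autoImplicit false

namespace Fermat.Agent.GAL.Mult

open UpperHalfPlane Filter Topology
open Fermat.Agent.S24 Fermat.Agent.S24.B
open scoped MatrixGroups Real Manifold

/-- The `ℚ̄`-algebra of holomorphic functions on the upper half plane. -/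
def Hol : Subalgebra Kbar (ℍ → ℂ) where
  carrier := {f | MDiff f}
  mul_mem' hf hg := hf.mul hg
  add_mem' hf hg := hf.add hg
  algebraMap_mem' _ := mdifferentiable_const

theorem mem_Hol {f : ℍ → ℂ} : f ∈ Hol ↔ MDiff f := Iff.rfl

theorem mdiff_comp_smul {f : ℍ → ℂ} (hf : MDiff f) (g : GL(2, ℝ)⁺) :
    MDiff (fun τ : ℍ => f (g • τ)) :=
  hf.comp (mdifferentiable_smul (g := (g : GL (Fin 2) ℝ)) g.2)

/-- `GL(2,ℝ)⁺` acts on `Hol` by `(g • f) τ = f (g⁻¹ • τ)`. -/
noncomputable instance instActionHol : MulSemiringAction GL(2, ℝ)⁺ Hol where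
  smul g f := ⟨fun τ => f.1 (g⁻¹ • τ), mdiff_comp_smul f.2 g⁻¹⟩
  one_smul f := by
    apply Subtype.ext
    funext τ
    show f.1 ((1 : GL(2, ℝ)⁺)⁻¹ • τ) = f.1 τ
    rw [inv_one, one_smul]
  mul_smul g g' f := by
    apply Subtype.ext
    funext τ
    show f.1 ((g * g')⁻¹ • τ) = f.1 (g'⁻¹ • g⁻¹ • τ)
    rw [mul_inv_rev, mul_smul]
  smul_zero _ := rfl
  smul_add _ _ _ := rfl
  smul_one _ := rfl
  smul_mul _ _ _ := rfl

theorem smul_Hol_apply (g : GL(2, ℝ)⁺) (f : Hol) (τ : ℍ) : (g • f).1 τ = f.1 (g⁻¹ • τ) := rfl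

theorem smul_Hol_algebraMap (g : GL(2, ℝ)⁺) (c : Kbar) :
    g • algebraMap Kbar Hol c = algebraMap Kbar Hol c := rfl

variable (τ₀ : ℍ)

/-- The Taylor expansion of a holomorphic function at `τ₀` (disc coordinate). -/
noncomputable def wexpHFun (f : Hol) : PowerSeries ℂ := (exists_hasWExp τ₀ f.2).choose

theorem hasWExp_wexpHFun (f : Hol) : HasWExp τ₀ f.1 (wexpHFun τ₀ f) :=
  (exists_hasWExp τ₀ f.2).choose_spec

variable {τ₀} in
theorem wexpHFun_eq {f : Hol} {s : PowerSeries ℂ} (h : HasWExp τ₀ f.1 s) : wexpHFun τ₀ f = s :=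
  (hasWExp_wexpHFun τ₀ f).unique h

/-- The Taylor expansion homomorphism at `τ₀`. -/
noncomputable def wexpH : Hol →+* PowerSeries ℂ where
  toFun := wexpHFun τ₀
  map_one' := wexpHFun_eq (by
    have h := HasWExp.const (τ₀ := τ₀) 1
    rw [map_one] at h
    exact h)
  map_mul' f g := wexpHFun_eq ((hasWExp_wexpHFun τ₀ f).mul (hasWExp_wexpHFun τ₀ g))
  map_zero' := wexpHFun_eq (by
    have h := HasWExp.const (τ₀ := τ₀) 0
    rw [map_zero] at h
    exact h)
  map_add' f g := wexpHFun_eq ((hasWExp_wexpHFun τ₀ f).add (hasWExp_wexpHFun τ₀ g))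

theorem hasWExp_wexpH (f : Hol) : HasWExp τ₀ f.1 (wexpH τ₀ f) := hasWExp_wexpHFun τ₀ f

variable {τ₀} in
theorem wexpH_eq {f : Hol} {s : PowerSeries ℂ} (h : HasWExp τ₀ f.1 s) : wexpH τ₀ f = s :=
  wexpHFun_eq h

theorem wexpH_injective : Function.Injective (wexpH τ₀) := by
  rw [injective_iff_map_eq_zero]
  intro f hf
  have h := hasWExp_wexpH τ₀ f
  rw [hf] at h
  exact Subtype.ext (h.eq_zero f.2)

instance instIsDomainHol : IsDomain Hol :=
  (wexpH_injective UpperHalfPlane.I).isDomain (wexpH UpperHalfPlane.I)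

theorem wexpH_algebraMap (c : Kbar) :
    wexpH τ₀ (algebraMap Kbar Hol c) = PowerSeries.C (iota c) :=
  wexpH_eq (HasWExp.const (iota c))

theorem order_wexpH (f : Hol) : (wexpH τ₀ f).order = ordAt τ₀ f.1 :=
  (hasWExp_wexpH τ₀ f).order_eq f.2

theorem ofPowerSeries_comp_wexpH_injective :
    Function.Injective ((HahnSeries.ofPowerSeries ℤ ℂ).comp (wexpH τ₀)) :=
  HahnSeries.ofPowerSeries_injective.comp (wexpH_injective τ₀)

/-- The field of meromorphic functions on the upper half plane. -/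
abbrev MM : Type := FractionRing Hol

/-- shortcut instance -/
noncomputable instance instSMulHolMM : SMul Hol MM := Algebra.toSMul

/-- shortcut instance -/
noncomputable instance instModuleKbarMM : Module Kbar MM := Algebra.toModule

noncomputable instance instActionMM : MulSemiringAction GL(2, ℝ)⁺ MM :=
  IsFractionRing.mulSemiringAction GL(2, ℝ)⁺ Hol MM

/-- shortcut instance (the generic search times out) -/
noncomputable instance (priority := high) instSMulGLPosMM : SMul GL(2, ℝ)⁺ MM :=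
  instActionMM.toSMul

/-- shortcut instance (the generic search times out) -/
noncomputable instance (priority := high) instSMulGLPosHol : SMul GL(2, ℝ)⁺ Hol :=
  instActionHol.toSMul

instance instSMulDistribClassMM : SMulDistribClass GL(2, ℝ)⁺ Hol MM :=
  IsFractionRing.smulDistribClass GL(2, ℝ)⁺ Hol MM

theorem smul_algebraMap_Hol (g : GL(2, ℝ)⁺) (f : Hol) :
    g • algebraMap Hol MM f = algebraMap Hol MM (g • f) :=
  (algebraMap.coe_smul' g f MM).symm

theorem smul_algebraMap_Kbar_MM (g : GL(2, ℝ)⁺) (c : Kbar) :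
    g • algebraMap Kbar MM c = algebraMap Kbar MM c := by
  rw [IsScalarTower.algebraMap_apply Kbar Hol MM, smul_algebraMap_Hol, smul_Hol_algebraMap]

/-- The Laurent expansion at `τ₀` of a meromorphic function. -/
noncomputable def wexpM : MM →+* LaurentSeries ℂ :=
  IsFractionRing.lift (ofPowerSeries_comp_wexpH_injective τ₀)

theorem wexpM_algebraMap (f : Hol) :
    wexpM τ₀ (algebraMap Hol MM f) = HahnSeries.ofPowerSeries ℤ ℂ (wexpH τ₀ f) :=
  IsFractionRing.lift_algebraMap _ _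

theorem wexpM_algebraMap_Kbar (c : Kbar) :
    wexpM τ₀ (algebraMap Kbar MM c) = HahnSeries.C (algebraMap Kbar ℂ c) := by
  rw [IsScalarTower.algebraMap_apply Kbar Hol MM, wexpM_algebraMap, wexpH_algebraMap,
    HahnSeries.ofPowerSeries_C]
  rfl

/-- an element of `GL(2,ℝ)⁺` which is the rotation `w ↦ μ w` acts on expansions by `twist μ`. -/
theorem wexpM_smul (δ : GL(2, ℝ)⁺) (μ : ℂˣ)
    (hδ : ∀ᶠ w in 𝓝 (0 : ℂ),
      δ⁻¹ • ofComplex (discInv τ₀ w) = ofComplex (discInv τ₀ ((μ : ℂ) * w))) (g : MM) :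
    wexpM τ₀ (δ • g) = twist μ (wexpM τ₀ g) := by
  have key : (wexpM τ₀).comp (MulSemiringAction.toRingHom GL(2, ℝ)⁺ MM δ) =
      (twist μ).comp (wexpM τ₀) := by
    refine IsLocalization.ringHom_ext (nonZeroDivisors Hol) ?_
    ext1 f
    have h1 : wexpH τ₀ (δ • f) = PowerSeries.rescale (μ : ℂ) (wexpH τ₀ f) :=
      wexpH_eq ((hasWExp_wexpH τ₀ f).comp (fun τ => δ⁻¹ • τ) μ hδ)
    simp only [RingHom.comp_apply, MulSemiringAction.toRingHom_apply]
    rw [smul_algebraMap_Hol, wexpM_algebraMap, wexpM_algebraMap, twist_ofPowerSeries, h1]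
  exact congrArg (fun φ : MM →+* LaurentSeries ℂ => φ g) key

/-- `SL(2,ℤ) → GL(2,ℝ)⁺`. -/
noncomputable def sl : SL(2, ℤ) →* GL(2, ℝ)⁺ where
  toFun γ := ⟨Matrix.SpecialLinearGroup.mapGL ℝ γ, by
    rw [Matrix.mem_glpos, Matrix.SpecialLinearGroup.det_mapGL]
    exact one_pos⟩
  map_one' := Subtype.ext (map_one _)
  map_mul' _ _ := Subtype.ext (map_mul _ _ _)

theorem sl_smul (γ : SL(2, ℤ)) (τ : ℍ) : sl γ • τ = γ • τ := rfl

theorem coe_sl (γ : SL(2, ℤ)) :
    ((sl γ : GL(2, ℝ)⁺) : GL (Fin 2) ℝ) = Matrix.SpecialLinearGroup.mapGL ℝ γ := rfl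

end Fermat.Agent.GAL.Mult
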