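/-
Cluster GAL, block M (multiplier map), owner helper269.
The ring `AB N` of "admissible" functions: holomorphic on the upper half plane, with finite
`SL(2,ℤ)`-orbit, all of whose translates have an expansion in `t = exp (2 π i τ / N)` with
coefficients in `ℚ̄`.  Its fraction field `LL N` contains `LN N` (S24/B) and is contained in `MM`.
-/
import Fermat.Agent.GAL.Mult.Hol

set_option autoImplicit false

namespace Fermat.Agent.GAL.Mult

open UpperHalfPlane Filter Topology ModularCurve
open Fermat.Agent.S24 Fermat.Agent.S24.B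
open scoped MatrixGroups Real Manifold

/-- Admissible functions of level `N`. -/
structure IsAdm (N : ℕ) (f : ℍ → ℂ) : Prop where
  mdiff : MDiff f
  texp : ∀ γ : SL(2, ℤ), ∃ s : LaurentSeries Kbar, HasTExp N (fun τ => f (γ • τ)) s
  fin : (Set.range fun γ : SL(2, ℤ) => fun τ : ℍ => f (γ • τ)).Finite

namespace IsAdm

variable {N : ℕ} {f g : ℍ → ℂ}

theorem const (c : Kbar) : IsAdm N (fun _ => iota c) where
  mdiff := mdifferentiable_const
  texp _ := ⟨_, HasTExp.const c⟩
  fin := (Set.finite_singleton (fun _ : ℍ => iota c)).subset (by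
    rintro _ ⟨γ, rfl⟩
    rfl)

theorem add (hf : IsAdm N f) (hg : IsAdm N g) : IsAdm N (f + g) where
  mdiff := hf.mdiff.add hg.mdiff
  texp γ := by
    obtain ⟨s, hs⟩ := hf.texp γ
    obtain ⟨s', hs'⟩ := hg.texp γ
    exact ⟨s + s', hs.add hs'⟩
  fin := (Set.Finite.image2 (fun a b : ℍ → ℂ => a + b) hf.fin hg.fin).subset (by
    rintro _ ⟨γ, rfl⟩
    exact ⟨_, ⟨γ, rfl⟩, _, ⟨γ, rfl⟩, rfl⟩)

theorem mul (hf : IsAdm N f) (hg : IsAdm N g) : IsAdm N (f * g) where
  mdiff := hf.mdiff.mul hg.mdiff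
  texp γ := by
    obtain ⟨s, hs⟩ := hf.texp γ
    obtain ⟨s', hs'⟩ := hg.texp γ
    exact ⟨s * s', hs.mul hs'⟩
  fin := (Set.Finite.image2 (fun a b : ℍ → ℂ => a * b) hf.fin hg.fin).subset (by
    rintro _ ⟨γ, rfl⟩
    exact ⟨_, ⟨γ, rfl⟩, _, ⟨γ, rfl⟩, rfl⟩)

theorem comp_smul (hf : IsAdm N f) (δ : SL(2, ℤ)) : IsAdm N (fun τ => f (δ • τ)) where
  mdiff := mdiff_comp_smul hf.mdiff (sl δ)
  texp γ := by
    obtain ⟨s, hs⟩ := hf.texp (δ * γ)
    refine ⟨s, ?_⟩
    simpa only [mul_smul] using hs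
  fin := hf.fin.subset (by
    rintro _ ⟨γ, rfl⟩
    exact ⟨δ * γ, by simp only [mul_smul]⟩)

theorem exists_hasTExp (hf : IsAdm N f) : ∃ s : LaurentSeries Kbar, HasTExp N f s := by
  obtain ⟨s, hs⟩ := hf.texp 1
  exact ⟨s, by simpa only [one_smul] using hs⟩

end IsAdm

/-- The `ℚ̄`-algebra of admissible functions of level `N`. -/
def AB (N : ℕ) : Subalgebra Kbar (ℍ → ℂ) where
  carrier := {f | IsAdm N f}
  mul_mem' hf hg := hf.mul hg
  add_mem' hf hg := hf.add hg
  algebraMap_mem' c := IsAdm.const c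

theorem mem_AB {N : ℕ} {f : ℍ → ℂ} : f ∈ AB N ↔ IsAdm N f := Iff.rfl

theorem AB_le_Hol (N : ℕ) : AB N ≤ Hol := fun _ hf => hf.mdiff

/-- `SL(2,ℤ)` acts on `AB N` by `(γ • f) τ = f (γ⁻¹ • τ)`. -/
noncomputable instance instActionAB (N : ℕ) : MulSemiringAction SL(2, ℤ) (AB N) where
  smul γ f := ⟨fun τ => f.1 (γ⁻¹ • τ), IsAdm.comp_smul f.2 γ⁻¹⟩
  one_smul f := by
    apply Subtype.ext
    funext τ
    show f.1 ((1 : SL(2, ℤ))⁻¹ • τ) = f.1 τ
    rw [inv_one, one_smul]
  mul_smul γ γ' f := by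
    apply Subtype.ext
    funext τ
    show f.1 ((γ * γ')⁻¹ • τ) = f.1 (γ'⁻¹ • γ⁻¹ • τ)
    rw [mul_inv_rev, mul_smul]
  smul_zero _ := rfl
  smul_add _ _ _ := rfl
  smul_one _ := rfl
  smul_mul _ _ _ := rfl

theorem smul_AB_apply {N : ℕ} (γ : SL(2, ℤ)) (f : AB N) (τ : ℍ) :
    (γ • f).1 τ = f.1 (γ⁻¹ • τ) := rfl

theorem smul_AB_algebraMap {N : ℕ} (γ : SL(2, ℤ)) (c : Kbar) :
    γ • algebraMap Kbar (AB N) c = algebraMap Kbar (AB N) c := rfl

theorem finite_orbit_AB {N : ℕ} (f : AB N) : (MulAction.orbit SL(2, ℤ) f).Finite := by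
  have h : (Subtype.val '' MulAction.orbit SL(2, ℤ) f).Finite := f.2.fin.subset (by
    rintro _ ⟨_, ⟨γ, rfl⟩, rfl⟩
    exact ⟨γ⁻¹, rfl⟩)
  exact h.of_finite_image Subtype.val_injective.injOn

variable {N : ℕ} [NeZero N]

/-- The `t`-expansion of an element of `AB N`. -/
noncomputable def texpBFun (f : AB N) : LaurentSeries Kbar := f.2.exists_hasTExp.choose

theorem hasTExp_texpBFun (f : AB N) : HasTExp N f.1 (texpBFun f) := f.2.exists_hasTExp.choose_spec

theorem texpBFun_eq {f : AB N} {s : LaurentSeries Kbar} (h : HasTExp N f.1 s) : texpBFun f = s :=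
  (hasTExp_texpBFun f).unique h

variable (N) in
/-- The `t`-expansion homomorphism. -/
noncomputable def texpB : AB N →ₐ[Kbar] LaurentSeries Kbar where
  toFun := texpBFun
  map_one' := texpBFun_eq HasTExp.one
  map_mul' f g := texpBFun_eq ((hasTExp_texpBFun f).mul (hasTExp_texpBFun g))
  map_zero' := texpBFun_eq (by
    have h := HasTExp.const (N := N) 0
    rw [map_zero, map_zero] at h
    exact h)
  map_add' f g := texpBFun_eq ((hasTExp_texpBFun f).add (hasTExp_texpBFun g))
  commutes' c := texpBFun_eq (by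
    rw [algebraMap_laurentSeries_eq_single]
    exact HasTExp.const c)

theorem hasTExp_texpB (f : AB N) : HasTExp N f.1 (texpB N f) := hasTExp_texpBFun f

theorem texpB_eq {f : AB N} {s : LaurentSeries Kbar} (h : HasTExp N f.1 s) : texpB N f = s :=
  texpBFun_eq h

theorem texpB_injective : Function.Injective (texpB N) := by
  rw [injective_iff_map_eq_zero]
  intro f hf
  have h := hasTExp_texpB f
  rw [hf] at h
  exact Subtype.ext h.eq_zero

instance instIsDomainAB : IsDomain (AB N) :=
  texpB_injective.isDomain (texpB N).toRingHom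

/-- `T` acts on expansions by the twist by `ζ_N⁻¹`. -/
theorem texpB_T_smul (f : AB N) : texpB N (ModularGroup.T • f) = twist (zetaK N)⁻¹ (texpB N f) :=
  texpB_eq (hasTExp_T_inv (hasTExp_texpB f))

variable (N)

/-- The field of modular functions (for arbitrary finite index subgroups) with expansions in
`ℚ̄((t))` at all cusps. -/
abbrev LL : Type := FractionRing (AB N)

/-- shortcut instance -/
noncomputable instance instSMulABLL : SMul (AB N) (LL N) := Algebra.toSMul

/-- shortcut instance -/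
noncomputable instance instModuleKbarLL : Module Kbar (LL N) := Algebra.toModule

noncomputable instance instActionLL : MulSemiringAction SL(2, ℤ) (LL N) :=
  IsFractionRing.mulSemiringAction SL(2, ℤ) (AB N) (LL N)

instance instSMulDistribClassLL : SMulDistribClass SL(2, ℤ) (AB N) (LL N) :=
  IsFractionRing.smulDistribClass SL(2, ℤ) (AB N) (LL N)

variable {N}

theorem smul_algebraMap_AB (γ : SL(2, ℤ)) (f : AB N) :
    γ • algebraMap (AB N) (LL N) f = algebraMap (AB N) (LL N) (γ • f) :=
  (algebraMap.coe_smul' γ f (LL N)).symm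

theorem smul_algebraMap_Kbar_LL (γ : SL(2, ℤ)) (c : Kbar) :
    γ • algebraMap Kbar (LL N) c = algebraMap Kbar (LL N) c := by
  rw [IsScalarTower.algebraMap_apply Kbar (AB N) (LL N), smul_algebraMap_AB, smul_AB_algebraMap]

variable (N)

/-- The `t`-expansion on the fraction field. -/
noncomputable def texpLL : LL N →ₐ[Kbar] LaurentSeries Kbar :=
  IsFractionRing.liftAlgHom (g := texpB N) texpB_injective

variable {N}

theorem texpLL_algebraMap (f : AB N) : texpLL N (algebraMap (AB N) (LL N) f) = texpB N f :=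
  IsFractionRing.liftAlgHom_apply .. |>.trans (IsFractionRing.lift_algebraMap _ _)

theorem texpLL_injective : Function.Injective (texpLL N) := (texpLL N).toRingHom.injective

theorem texpLL_T_smul (g : LL N) :
    texpLL N (ModularGroup.T • g) = twist (zetaK N)⁻¹ (texpLL N g) := by
  have h : (texpLL N).toRingHom.comp
        (MulSemiringAction.toRingHom SL(2, ℤ) (LL N) ModularGroup.T) =
      (twist (zetaK N)⁻¹).comp (texpLL N).toRingHom := by
    refine IsLocalization.ringHom_ext (nonZeroDivisors (AB N)) ?_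
    refine RingHom.ext fun f => ?_
    show texpLL N (ModularGroup.T • algebraMap (AB N) (LL N) f) =
      twist (zetaK N)⁻¹ (texpLL N (algebraMap (AB N) (LL N) f))
    rw [smul_algebraMap_AB, texpLL_algebraMap, texpLL_algebraMap, texpB_T_smul]
  exact RingHom.congr_fun h g

/-! ### The embeddings `AL N → AB N → Hol` and `LN N → LL N → MM` -/

theorem isAdm_of_mem_AL {f : ℍ → ℂ} (hf : f ∈ AL N) : IsAdm N f where
  mdiff := Stubs.mdiff_of_mem_AL hf
  texp γ := exists_hasTExp_of_mem (comp_smul_mem_AL hf γ)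
  fin := by
    have h := (finite_orbit (⟨f, hf⟩ : AL N)).image Subtype.val
    refine h.subset ?_
    rintro _ ⟨γ, rfl⟩
    refine ⟨γ⁻¹ • (⟨f, hf⟩ : AL N), ⟨γ⁻¹, rfl⟩, ?_⟩
    funext τ
    show f ((γ⁻¹)⁻¹ • τ) = f (γ • τ)
    rw [inv_inv]

theorem AL_le_AB : AL N ≤ AB N := fun _ hf => isAdm_of_mem_AL hf

variable (N)

/-- The inclusion `AL N → AB N`. -/
noncomputable def alToAB : AL N →ₐ[Kbar] AB N := Subalgebra.inclusion AL_le_AB

/-- The inclusion `AB N → Hol`. -/
noncomputable def abToHol : AB N →ₐ[Kbar] Hol := Subalgebra.inclusion (AB_le_Hol N)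

variable {N}

theorem alToAB_injective : Function.Injective (alToAB N) := Subalgebra.inclusion_injective _

theorem abToHol_injective : Function.Injective (abToHol N) := Subalgebra.inclusion_injective _

theorem alToAB_apply (f : AL N) (τ : ℍ) : (alToAB N f).1 τ = f.1 τ := rfl

theorem abToHol_apply (f : AB N) (τ : ℍ) : (abToHol N f).1 τ = f.1 τ := rfl

theorem alToAB_smul (γ : SL(2, ℤ)) (f : AL N) : alToAB N (γ • f) = γ • alToAB N f := rfl

theorem abToHol_smul (γ : SL(2, ℤ)) (f : AB N) : abToHol N (γ • f) = sl γ • abToHol N f := by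
  apply Subtype.ext
  funext τ
  show f.1 (γ⁻¹ • τ) = f.1 ((sl γ)⁻¹ • τ)
  rw [← map_inv, sl_smul]

theorem texpB_alToAB (f : AL N) : texpB N (alToAB N f) = texp N f :=
  texpB_eq (hasTExp_texp f)

variable (N)

/-- The embedding `LN N → LL N`. -/
noncomputable def lnToLL : LN N →ₐ[Kbar] LL N :=
  IsFractionRing.liftAlgHom (g := (IsScalarTower.toAlgHom Kbar (AB N) (LL N)).comp (alToAB N))
    ((IsFractionRing.injective (AB N) (LL N)).comp alToAB_injective)

/-- The embedding `LL N → MM`. -/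
noncomputable def embL : LL N →ₐ[Kbar] MM :=
  IsFractionRing.liftAlgHom (g := (IsScalarTower.toAlgHom Kbar Hol MM).comp (abToHol N))
    ((IsFractionRing.injective Hol MM).comp abToHol_injective)

/-- The function field of `X₀(N)` inside `LL N`. -/
noncomputable def PsiL : FN N →ₐ[Kbar] LL N := (lnToLL N).comp (Psi N)

/-- The function field of `X₀(N)` realised as a field of meromorphic functions. -/
noncomputable def real : FN N →ₐ[Kbar] MM := (embL N).comp (PsiL N)

variable {N}

theorem lnToLL_algebraMap (f : AL N) :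
    lnToLL N (algebraMap (AL N) (LN N) f) = algebraMap (AB N) (LL N) (alToAB N f) :=
  IsFractionRing.liftAlgHom_apply .. |>.trans (IsFractionRing.lift_algebraMap _ _)

theorem embL_algebraMap (f : AB N) :
    embL N (algebraMap (AB N) (LL N) f) = algebraMap Hol MM (abToHol N f) :=
  IsFractionRing.liftAlgHom_apply .. |>.trans (IsFractionRing.lift_algebraMap _ _)

theorem real_apply (u : FN N) : real N u = embL N (PsiL N u) := rfl

theorem PsiL_apply (u : FN N) : PsiL N u = lnToLL N (Psi N u) := rfl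

end Fermat.Agent.GAL.Mult
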