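/-
Cluster GAL, block M (multiplier map), node M02.
The `SL(2,ℤ)`-invariants of `LL N` are `ℚ̄(j)`  (copy of S24/B/Invariants.lean with `AB N`).
-/
import Fermat.Agent.GAL.Mult.Adm
import Fermat.Agent.S24.B.Invariants

set_option autoImplicit false

namespace Fermat.Agent.GAL.Mult

open UpperHalfPlane ModularCurve IntermediateField CongruenceSubgroup
open Fermat.Agent.S24 Fermat.Agent.S24.B
open scoped MatrixGroups Real

variable {N : ℕ} [NeZero N]

namespace InvariantsLL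

theorem lnToLL_smul' (γ : SL(2, ℤ)) (x : LN N) : lnToLL N (γ • x) = γ • lnToLL N x := by
  have h : (lnToLL N).toRingHom.comp (MulSemiringAction.toRingHom SL(2, ℤ) (LN N) γ) =
      (MulSemiringAction.toRingHom SL(2, ℤ) (LL N) γ).comp (lnToLL N).toRingHom := by
    refine IsLocalization.ringHom_ext (nonZeroDivisors (AL N)) ?_
    refine RingHom.ext fun f => ?_
    show lnToLL N (γ • algebraMap (AL N) (LN N) f) = γ • lnToLL N (algebraMap (AL N) (LN N) f)
    rw [smul_algebraMap_AL, lnToLL_algebraMap, lnToLL_algebraMap, smul_algebraMap_AB, alToAB_smul]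
  exact RingHom.congr_fun h x

theorem smul_PsiL (γ : SL(2, ℤ)) (f : FN N) : γ • PsiL N f = lnToLL N (γ • Psi N f) := by
  rw [lnToLL_smul', PsiL_apply]

theorem smul_PsiL_of_mem (γ : SL(2, ℤ)) (hγ : γ ∈ Gamma0 N) (f : FN N) :
    γ • PsiL N f = PsiL N f := by
  rw [smul_PsiL, smul_Psi_of_mem_Gamma0 γ hγ, PsiL_apply]

theorem mem_of_smul_PsiL (γ : SL(2, ℤ)) (h : ∀ f : FN N, γ • PsiL N f = PsiL N f) :
    γ ∈ Gamma0 N := by
  apply mem_Gamma0_of_smul_Psi
  intro f
  have h1 := h f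
  rw [smul_PsiL, PsiL_apply] at h1
  exact (lnToLL N).toRingHom.injective h1

theorem smul_PsiL_jF (γ : SL(2, ℤ)) : γ • PsiL N (jF N) = PsiL N (jF N) := by
  rw [smul_PsiL, smul_Psi_jF, PsiL_apply]

/-- evaluation at `τ` as a `ℚ̄`-algebra homomorphism `AB N → ℂ`. -/
noncomputable def evalAB (N : ℕ) (τ : ℍ) : AB N →ₐ[Kbar] ℂ :=
  (Pi.evalAlgHom Kbar (fun _ : ℍ => ℂ) τ).comp (AB N).val

theorem evalAB_apply (τ : ℍ) (f : AB N) : evalAB N τ f = f.1 τ := rfl

theorem aeval_alToAB_jd_one_apply (p : Polynomial Kbar) (τ : ℍ) :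
    (Polynomial.aeval (alToAB N (jd N 1 (one_dvd N))) p).1 τ = Polynomial.aeval (jfun τ) p := by
  rw [← evalAB_apply, ← Polynomial.aeval_algHom_apply, evalAB_apply, alToAB_apply, jd_one_apply]

theorem exists_poly_of_invariant_AB (f : AB N) (hf : ∀ γ : SL(2, ℤ), γ • f = f) :
    ∃ p : Polynomial Kbar, f = Polynomial.aeval (alToAB N (jd N 1 (one_dvd N))) p := by
  obtain ⟨p, hp⟩ := exists_poly_of_invariant (N := N) f.1 f.2.mdiff
    (fun γ τ => by
      have h := congrArg (fun g : AB N => g.1 τ) (hf γ⁻¹)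
      simpa [smul_AB_apply] using h)
    (texpB N f) (hasTExp_texpB f)
  refine ⟨p, Subtype.ext (funext fun τ => ?_)⟩
  rw [hp τ, aeval_alToAB_jd_one_apply]

theorem PsiL_aeval_jF (p : Polynomial Kbar) :
    PsiL N (Polynomial.aeval (jF N) p) =
      algebraMap (AB N) (LL N) (Polynomial.aeval (alToAB N (jd N 1 (one_dvd N))) p) := by
  rw [PsiL_apply, Psi_aeval_jF, lnToLL_algebraMap, Polynomial.aeval_algHom_apply]

end InvariantsLL

open InvariantsLL

theorem invariants_LL (g : LL N) (hg : ∀ γ : SL(2, ℤ), γ • g = g) :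
    ∃ r ∈ Kbar⟮jF N⟯, PsiL N r = g := by
  obtain ⟨a, b, _, ha, hb, rfl⟩ :=
    exists_invariant_fraction (G := SL(2, ℤ)) (A := AB N) (L := LL N) finite_orbit_AB g hg
  obtain ⟨p, rfl⟩ := exists_poly_of_invariant_AB a ha
  obtain ⟨q, rfl⟩ := exists_poly_of_invariant_AB b hb
  refine ⟨Polynomial.aeval (jF N) p / Polynomial.aeval (jF N) q,
    div_mem (aeval_jF_mem p) (aeval_jF_mem q), ?_⟩
  rw [map_div₀, PsiL_aeval_jF, PsiL_aeval_jF]

theorem isUniformization_LL : IsUniformization (jF N) (Gamma0 N) (PsiL N) where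
  smul_algebraMap := smul_algebraMap_Kbar_LL
  smul_of_mem := smul_PsiL_of_mem
  smul_x := smul_PsiL_jF
  mem_of_smul := mem_of_smul_PsiL
  invariants := invariants_LL

end Fermat.Agent.GAL.Mult
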