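/-
Cluster GAL, block M (multiplier map), node M03 (helper190): the fixed field of `H` in an abstract
uniformisation is `Ψ(F)`.
-/
import Fermat.Agent.S24.CL.Degree
import Fermat.Agent.S24.Formal
import Fermat.Agent.GAL.Mult.InvariantsLL

set_option autoImplicit false
set_option linter.style.haveILetI false

namespace Fermat.Agent.GAL.Mult

open IntermediateField CongruenceSubgroup
open Fermat.Agent.S24 Fermat.Agent.S24.B
open scoped MatrixGroups

theorem mem_range_of_fixed {K F L G : Type*} [Field K] [Field F] [Algebra K F] [Field L]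
    [Algebra K L] [Group G] [MulSemiringAction G L] [CharZero K] {x : F} {H : Subgroup G}
    [H.FiniteIndex] {Ψ : F →ₐ[K] L} (hU : IsUniformization x H Ψ)
    (hfg : ∃ s : Finset F, IntermediateField.adjoin K (s : Set F) = ⊤)
    (y : L) (hy : ∀ γ ∈ H, γ • y = y) : ∃ f : F, Ψ f = y := by
  classical
  obtain ⟨s, hs⟩ := hfg
  -- the field generated by `Ψ(F)` and `y`
  set F' : IntermediateField K L := IntermediateField.adjoin K (Ψ '' (s : Set F) ∪ {y}) with hF'
  have hyF' : y ∈ F' := subset_adjoin K _ (Set.mem_union_right _ rfl)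
  have hΨF' : ∀ f : F, Ψ f ∈ F' := by
    intro f
    have h1 : (IntermediateField.adjoin K (s : Set F)).map Ψ ≤ F' := by
      rw [IntermediateField.adjoin_map]
      exact IntermediateField.adjoin.mono _ _ _ Set.subset_union_left
    apply h1
    rw [hs]
    exact ⟨f, trivial, rfl⟩
  let Ψ₀ : F →ₐ[K] F' := Ψ.codRestrict F'.toSubalgebra hΨF'
  have hΨ₀ : ∀ f : F, ((Ψ₀ f : F') : L) = Ψ f := fun f => rfl
  have hfix : ∀ γ ∈ H, ∀ z ∈ F', γ • z = z := by
    intro γ hγ z hz
    induction hz using IntermediateField.adjoin_induction with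
    | mem w hw =>
      rcases hw with ⟨f, -, rfl⟩ | hw
      · exact hU.smul_of_mem γ hγ f
      · rw [Set.mem_singleton_iff] at hw
        subst hw
        exact hy γ hγ
    | algebraMap c => exact hU.smul_algebraMap γ c
    | add a b _ _ ha hb => rw [smul_add, ha, hb]
    | inv a _ ha => rw [smul_inv'', ha]
    | mul a b _ _ ha hb => rw [smul_mul', ha, hb]
  have hU' : IsUniformization (Ψ₀ x) H F'.val :=
    { smul_algebraMap := hU.smul_algebraMap
      smul_of_mem := fun γ hγ z => hfix γ hγ z z.2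
      smul_x := hU.smul_x
      mem_of_smul := fun γ h => hU.mem_of_smul γ fun f => h (Ψ₀ f)
      invariants := by
        intro g hg
        obtain ⟨r, hr, rfl⟩ := hU.invariants g hg
        refine ⟨Ψ₀ r, ?_, rfl⟩
        have h1 : (K⟮x⟯).map Ψ₀ = K⟮Ψ₀ x⟯ := by
          rw [IntermediateField.adjoin_map, Set.image_singleton]
        rw [← h1]
        exact ⟨r, hr, rfl⟩ }
  have hfg' : ∃ t : Finset F', IntermediateField.adjoin K (t : Set F') = ⊤ := by
    have h1 : F'.FG :=
      IntermediateField.fg_adjoin_of_finite (((s.finite_toSet).image _).union (Set.finite_singleton y))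
    exact IntermediateField.fg_top_iff.mpr (IntermediateField.essFiniteType_iff.mpr h1)
  haveI := CL.finiteDimensional_of_isUniformization hU ⟨s, hs⟩
  haveI := CL.finiteDimensional_of_isUniformization hU' hfg'
  have hd := CL.finrank_eq_index' hU
  have hd' := CL.finrank_eq_index' hU'
  -- `F'` as an algebra over `K(x)`
  letI : Algebra K⟮x⟯ F' := ((Ψ₀ : F →+* F').comp (algebraMap K⟮x⟯ F)).toAlgebra
  have hmap : (K⟮x⟯).map Ψ₀ = K⟮Ψ₀ x⟯ := by
    rw [IntermediateField.adjoin_map, Set.image_singleton]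
  let i : K⟮x⟯ ≃+* K⟮Ψ₀ x⟯ :=
    ((IntermediateField.equivMap K⟮x⟯ Ψ₀).trans (IntermediateField.equivOfEq hmap)).toRingEquiv
  have hfr : Module.finrank K⟮x⟯ F' = Module.finrank K⟮Ψ₀ x⟯ F' :=
    Algebra.finrank_eq_of_equiv_equiv i (RingEquiv.refl F') (by
      ext r
      rfl)
  have hpos : 0 < H.index := Nat.pos_of_ne_zero Subgroup.FiniteIndex.index_ne_zero
  haveI : Module.Finite K⟮x⟯ F' := Module.finite_of_finrank_pos (by rw [hfr, hd']; exact hpos)
  let Ψ₁ : F →ₗ[K⟮x⟯] F' :=
    { toFun := Ψ₀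
      map_add' := map_add Ψ₀
      map_smul' := fun r f => by
        rw [Algebra.smul_def, Algebra.smul_def, map_mul]
        rfl }
  have hinj : Function.Injective Ψ₁ := Ψ₀.toRingHom.injective
  have hsurj : Function.Surjective Ψ₁ :=
    (LinearMap.injective_iff_surjective_of_finrank_eq_finrank (by rw [hfr, hd, hd'])).mp hinj
  obtain ⟨f, hf⟩ := hsurj ⟨y, hyF'⟩
  exact ⟨f, congrArg Subtype.val hf⟩

theorem exists_PsiL_eq_of_fixed {N : ℕ} [NeZero N] (y : LL N)
    (hy : ∀ γ ∈ Gamma0 N, γ • y = y) : ∃ f : FN N, PsiL N f = y :=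
  mem_range_of_fixed isUniformization_LL (Formal.exists_finset_adjoin_eq_top N) y hy

end Fermat.Agent.GAL.Mult
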