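/-
Cluster GAL, block M (multiplier map), owner helper269.
The relation `IsMult N n u ψ`: "`ψ : Γ₀(N) → ℤ/n` is the multiplier system of an `n`-th root of `u`".
-/
import Fermat.Agent.GAL.Mult.Adm
import Fermat.Agent.Lib.HeckeHom.Gamma0

set_option autoImplicit false

namespace Fermat.Agent.GAL.Mult

open UpperHalfPlane CongruenceSubgroup
open Fermat.Agent.S24 Fermat.Agent.S24.B
open scoped MatrixGroups

/-- `ψ` is the multiplier system of an `n`-th root `h` (a meromorphic function on `ℍ`) of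
`u ∈ ℚ̄(X₀(N))`:  `h (γ τ) = ζ_n ^ ψ(γ) h(τ)` for `γ ∈ Γ₀(N)`. -/
def IsMult (N n : ℕ) [NeZero N] [NeZero n] (u : FN N) (ψ : Additive (Gamma0 N) →+ ZMod n) : Prop :=
  ∃ h : MM, h ≠ 0 ∧ h ^ n = real N u ∧ ∀ γ : Gamma0 N,
    (sl (γ : SL(2, ℤ)))⁻¹ • h =
      algebraMap Kbar MM ((zetaK n : Kbar) ^ (ψ (Additive.ofMul γ)).val) * h

/-- `ψ` kills the elements of `Γ₀(N)` which are conjugate in `SL(2,ℤ)` to a power of `σ`. -/
def Kills {N n : ℕ} (ψ : Additive (Gamma0 N) →+ ZMod n) (σ : SL(2, ℤ)) : Prop :=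
  ∀ (k : ℕ) (g : SL(2, ℤ)) (hg : g⁻¹ * σ ^ k * g ∈ Gamma0 N), ψ (Additive.ofMul ⟨_, hg⟩) = 0

end Fermat.Agent.GAL.Mult
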