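/-
Cluster GAL, block M (multiplier map), node M01 (statements helper269, proofs helper187).
Compatibilities of the embeddings `LN N → LL N → MM`.
-/
import Fermat.Agent.GAL.Mult.Defs

set_option autoImplicit false

namespace Fermat.Agent.GAL.Mult

open UpperHalfPlane Filter Topology ModularCurve CongruenceSubgroup
open Fermat.Agent.S24 Fermat.Agent.S24.B
open scoped MatrixGroups Real Manifold

variable {N : ℕ} [NeZero N]

theorem lnToLL_smul (γ : SL(2, ℤ)) (x : LN N) : lnToLL N (γ • x) = γ • lnToLL N x := by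
  have h : (lnToLL N).toRingHom.comp (MulSemiringAction.toRingHom SL(2, ℤ) (LN N) γ) =
      (MulSemiringAction.toRingHom SL(2, ℤ) (LL N) γ).comp (lnToLL N).toRingHom := by
    refine IsLocalization.ringHom_ext (nonZeroDivisors (AL N)) ?_
    refine RingHom.ext fun f => ?_
    show lnToLL N (γ • algebraMap (AL N) (LN N) f) = γ • lnToLL N (algebraMap (AL N) (LN N) f)
    rw [smul_algebraMap_AL, lnToLL_algebraMap, lnToLL_algebraMap, smul_algebraMap_AB, alToAB_smul]
  exact RingHom.congr_fun h x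

theorem embL_smul (γ : SL(2, ℤ)) (x : LL N) : embL N (γ • x) = sl γ • embL N x := by
  have h : (embL N).toRingHom.comp (MulSemiringAction.toRingHom SL(2, ℤ) (LL N) γ) =
      (MulSemiringAction.toRingHom GL(2, ℝ)⁺ MM (sl γ)).comp (embL N).toRingHom := by
    refine IsLocalization.ringHom_ext (nonZeroDivisors (AB N)) ?_
    refine RingHom.ext fun f => ?_
    show embL N (γ • algebraMap (AB N) (LL N) f) = sl γ • embL N (algebraMap (AB N) (LL N) f)
    rw [smul_algebraMap_AB, embL_algebraMap, embL_algebraMap, smul_algebraMap_Hol, abToHol_smul]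
  exact RingHom.congr_fun h x

theorem texpLL_lnToLL (x : LN N) : texpLL N (lnToLL N x) = texpL N x := by
  have h : (texpLL N).toRingHom.comp (lnToLL N).toRingHom = (texpL N).toRingHom := by
    refine IsLocalization.ringHom_ext (nonZeroDivisors (AL N)) ?_
    refine RingHom.ext fun f => ?_
    show texpLL N (lnToLL N (algebraMap (AL N) (LN N) f)) = texpL N (algebraMap (AL N) (LN N) f)
    rw [lnToLL_algebraMap, texpLL_algebraMap, texpB_alToAB, texpL_algebraMap]
  exact RingHom.congr_fun h x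

theorem wexpM_embL_lnToLL (τ₀ : ℍ) (x : LN N) :
    wexpM τ₀ (embL N (lnToLL N x)) = wexpL N τ₀ x := by
  have h : ((wexpM τ₀).comp (embL N).toRingHom).comp (lnToLL N).toRingHom = wexpL N τ₀ := by
    refine IsLocalization.ringHom_ext (nonZeroDivisors (AL N)) ?_
    refine RingHom.ext fun f => ?_
    show wexpM τ₀ (embL N (lnToLL N (algebraMap (AL N) (LN N) f))) =
      wexpL N τ₀ (algebraMap (AL N) (LN N) f)
    have h1 : wexpH τ₀ (abToHol N (alToAB N f)) = wexp N τ₀ f := wexpH_eq (hasWExp_wexp τ₀ f)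
    rw [lnToLL_algebraMap, embL_algebraMap, wexpM_algebraMap, wexpL_algebraMap, h1]
  exact RingHom.congr_fun h x

theorem texpLL_PsiL (f : FN N) : texpLL N (PsiL N f) = phi1 N f := by
  rw [PsiL_apply, texpLL_lnToLL, texpL_Psi]

theorem smul_PsiL_of_mem_Gamma0 (γ : SL(2, ℤ)) (hγ : γ ∈ Gamma0 N) (f : FN N) :
    γ • PsiL N f = PsiL N f := by
  rw [PsiL_apply, ← lnToLL_smul, smul_Psi_of_mem_Gamma0 γ hγ]

theorem mem_Gamma0_of_smul_PsiL (γ : SL(2, ℤ)) (h : ∀ f : FN N, γ • PsiL N f = PsiL N f) :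
    γ ∈ Gamma0 N := by
  apply mem_Gamma0_of_smul_Psi
  intro f
  have h1 := h f
  rw [PsiL_apply, ← lnToLL_smul] at h1
  exact (lnToLL N).toRingHom.injective h1

theorem smul_real_of_mem_Gamma0 (γ : SL(2, ℤ)) (hγ : γ ∈ Gamma0 N) (f : FN N) :
    sl γ • real N f = real N f := by
  rw [real_apply, ← embL_smul, smul_PsiL_of_mem_Gamma0 γ hγ]

/-- powers of `T` act on `t`-expansions by twists -/
theorem texpLL_T_pow_smul (k : ℕ) (g : LL N) :
    texpLL N (ModularGroup.T ^ k • g) = twist ((zetaK N)⁻¹ ^ k) (texpLL N g) := by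
  induction k with
  | zero => rw [pow_zero, pow_zero, one_smul, twist_one]
  | succ k ih =>
    rw [pow_succ', mul_smul, texpLL_T_smul, ih, twist_twist, pow_succ']

/-- powers of a rotation act on `w`-expansions by twists -/
theorem wexpM_pow_smul (τ₀ : ℍ) (δ : GL(2, ℝ)⁺) (μ : ℂˣ)
    (hδ : ∀ᶠ w in 𝓝 (0 : ℂ),
      δ⁻¹ • ofComplex (discInv τ₀ w) = ofComplex (discInv τ₀ ((μ : ℂ) * w))) (k : ℕ) (g : MM) :
    wexpM τ₀ (δ ^ k • g) = twist (μ ^ k) (wexpM τ₀ g) := by
  induction k with
  | zero => rw [pow_zero, pow_zero, one_smul, twist_one]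
  | succ k ih =>
    rw [pow_succ', mul_smul, wexpM_smul τ₀ δ μ hδ, ih, twist_twist, pow_succ']

end Fermat.Agent.GAL.Mult
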