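/-
Cluster GAL, block M (multiplier map), node M11 (owner helper222).
Formal properties of the relation `IsMult` (part 1: everything that does not need roots in `LL N`).
-/
import Fermat.Agent.GAL.Mult.API

set_option autoImplicit false

namespace Fermat.Agent.GAL.Mult

open UpperHalfPlane Filter Topology ModularCurve AlgebraicCurve CongruenceSubgroup IntermediateField
open Fermat.Agent.S24 Fermat.Agent.S24.B Fermat.Agent.Lib.HeckeHom
open scoped MatrixGroups Real Manifold WithZero OnePoint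

section IsMult
variable {N n : ℕ} [NeZero N] [NeZero n]

theorem isPrimitiveRoot_zetaK_coe : IsPrimitiveRoot ((zetaK n : Kbarˣ) : Kbar) n :=
  (IsPrimitiveRoot.coe_units_iff).2 (isPrimitiveRoot_zetaK n)

/-- in a field containing `ℚ̄`, the `n`-th roots of unity are the powers of `ζ_n` -/
theorem exists_zeta_pow_of_pow_eq_one {M : Type*} [Field M] [Algebra Kbar M] (x : M)
    (hx : x ^ n = 1) : ∃ a : ZMod n, x = algebraMap Kbar M ((zetaK n : Kbar) ^ a.val) := by
  have h1 : IsPrimitiveRoot (algebraMap Kbar M (zetaK n : Kbar)) n :=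
    (isPrimitiveRoot_zetaK_coe (n := n)).map_of_injective (algebraMap Kbar M).injective
  obtain ⟨i, hi, hix⟩ := h1.eq_pow_of_pow_eq_one hx
  refine ⟨(i : ZMod n), ?_⟩
  rw [ZMod.val_natCast_of_lt hi, map_pow, hix]

theorem zeta_pow_val_injective {a b : ZMod n}
    (h : (zetaK n : Kbar) ^ a.val = (zetaK n : Kbar) ^ b.val) : a = b :=
  ZMod.val_injective n
    ((isPrimitiveRoot_zetaK_coe (n := n)).pow_inj (ZMod.val_lt a) (ZMod.val_lt b) h)

theorem zeta_pow_val_add (a b : ZMod n) :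
    (zetaK n : Kbar) ^ (a + b).val = (zetaK n : Kbar) ^ a.val * (zetaK n : Kbar) ^ b.val := by
  rw [ZMod.val_add, ← pow_add,
    ← pow_eq_pow_mod _ (isPrimitiveRoot_zetaK_coe (n := n)).pow_eq_one]

theorem zeta_pow_val_zero : (zetaK n : Kbar) ^ (0 : ZMod n).val = 1 := by
  rw [ZMod.val_zero, pow_zero]

theorem real_ne_zero {u : FN N} (hu : u ≠ 0) : real N u ≠ 0 :=
  (map_ne_zero_iff _ (real N).toRingHom.injective).2 hu

theorem inv_sl_smul_real (γ : Gamma0 N) (u : FN N) :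
    (sl (γ : SL(2, ℤ)))⁻¹ • real N u = real N u := by
  rw [← map_inv]
  exact smul_real_of_mem_Gamma0 _ (inv_mem γ.2) u

/-- two `n`-th roots of the same nonzero element differ by a power of `ζ_n` -/
theorem exists_zeta_mul_of_pow_eq {M : Type*} [Field M] [Algebra Kbar M] {x y : M} (hy : y ≠ 0)
    (h : x ^ n = y ^ n) : ∃ a : ZMod n, x = algebraMap Kbar M ((zetaK n : Kbar) ^ a.val) * y := by
  obtain ⟨a, ha⟩ := exists_zeta_pow_of_pow_eq_one (n := n) (x / y) (by
    rw [div_pow, h, div_self (pow_ne_zero _ hy)])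
  exact ⟨a, by rw [← ha, div_mul_cancel₀ _ hy]⟩

theorem algebraMap_zeta_mul_cancel {M : Type*} [Field M] [Algebra Kbar M] {y : M} (hy : y ≠ 0)
    {a b : ZMod n} (h : algebraMap Kbar M ((zetaK n : Kbar) ^ a.val) * y =
      algebraMap Kbar M ((zetaK n : Kbar) ^ b.val) * y) : a = b :=
  zeta_pow_val_injective ((algebraMap Kbar M).injective (mul_right_cancel₀ hy h))

/-- every `n`-th root in `MM` of an element of `FN N` has a multiplier system -/
theorem exists_isMult_of_root (u : FN N) (hu : u ≠ 0) (h : MM) (hh : h ^ n = real N u) :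
    ∃ ψ : Additive (Gamma0 N) →+ ZMod n, ∀ γ : Gamma0 N, (sl (γ : SL(2, ℤ)))⁻¹ • h =
      algebraMap Kbar MM ((zetaK n : Kbar) ^ (ψ (Additive.ofMul γ)).val) * h := by
  have hh0 : h ≠ 0 := by
    rintro rfl
    rw [zero_pow (NeZero.ne n)] at hh
    exact real_ne_zero hu hh.symm
  have key : ∀ γ : Gamma0 N, ∃ a : ZMod n, (sl (γ : SL(2, ℤ)))⁻¹ • h =
      algebraMap Kbar MM ((zetaK n : Kbar) ^ a.val) * h := by
    intro γ
    refine exists_zeta_mul_of_pow_eq hh0 ?_
    rw [← smul_pow', hh, inv_sl_smul_real]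
  choose c hc using key
  refine ⟨AddMonoidHom.mk' (fun γ => c (Additive.toMul γ)) ?_, fun γ => hc γ⟩
  intro γ γ'
  refine algebraMap_zeta_mul_cancel hh0 ?_
  have e : Additive.toMul (γ + γ') = Additive.toMul γ * Additive.toMul γ' := rfl
  rw [← hc, e, Subgroup.coe_mul, map_mul, mul_inv_rev, mul_smul, hc, smul_mul',
    smul_algebraMap_Kbar_MM, hc, zeta_pow_val_add, map_mul, mul_assoc]

theorem IsMult.unique {u : FN N} {ψ ψ' : Additive (Gamma0 N) →+ ZMod n} (h : IsMult N n u ψ)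
    (h' : IsMult N n u ψ') : ψ = ψ' := by
  obtain ⟨x, hx0, hxn, hx⟩ := h
  obtain ⟨y, hy0, hyn, hy⟩ := h'
  obtain ⟨a, ha⟩ := exists_zeta_mul_of_pow_eq (n := n) hx0 (hyn.trans hxn.symm)
  refine AddMonoidHom.ext fun γ => ?_
  refine algebraMap_zeta_mul_cancel hy0 ?_
  have h1 := hy (Additive.toMul γ)
  rw [ofMul_toMul] at h1
  have h2 := hx (Additive.toMul γ)
  rw [ofMul_toMul] at h2
  rw [← h1]
  conv_lhs => rw [ha]
  conv_rhs => rw [ha, smul_mul', smul_algebraMap_Kbar_MM, h2]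
  ring

theorem IsMult.mul {u u' : FN N} {ψ ψ' : Additive (Gamma0 N) →+ ZMod n} (h : IsMult N n u ψ)
    (h' : IsMult N n u' ψ') : IsMult N n (u * u') (ψ + ψ') := by
  obtain ⟨x, hx0, hxn, hx⟩ := h
  obtain ⟨y, hy0, hyn, hy⟩ := h'
  refine ⟨x * y, mul_ne_zero hx0 hy0, by rw [mul_pow, hxn, hyn, map_mul], fun γ => ?_⟩
  rw [smul_mul', hx, hy, AddMonoidHom.add_apply, zeta_pow_val_add, map_mul]
  ring

theorem isMult_pow (v : FN N) (hv : v ≠ 0) : IsMult N n (v ^ n) 0 := by
  refine ⟨real N v, real_ne_zero hv, (map_pow _ _ _).symm, fun γ => ?_⟩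
  rw [inv_sl_smul_real, AddMonoidHom.zero_apply, zeta_pow_val_zero, map_one, one_mul]

end IsMult

end Fermat.Agent.GAL.Mult
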