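/-
Cluster GAL, block M (multiplier map), node M09 (owner helper199).
Local orders of Kummer elements: if `n ∣ div u` then `n` divides the order of every local
expansion of `u`.
-/
import Fermat.Agent.GAL.Mult.Defs
import Fermat.Agent.S24.CL.PlaceOfVal

set_option autoImplicit false

namespace Fermat.Agent.GAL.Mult

open UpperHalfPlane ModularCurve AlgebraicCurve CongruenceSubgroup
open Fermat.Agent.S24 Fermat.Agent.S24.B
open scoped MatrixGroups WithZero

/-- A `ℤ`-valued valuation, trivial on the constants, takes values in `exp (n ℤ)` on the elements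
whose divisor is divisible by `n`. -/
theorem KumOrd.exists_exp_mul {K F : Type*} [Field K] [Field F] [Algebra K F]
    (W : Valuation F ℤᵐ⁰) (hK : ∀ a : K, a ≠ 0 → W (algebraMap K F a) = 1) (n : ℕ) (u : F)
    (hu : u ≠ 0) (hdiv : ∀ v : Place K F, (n : ℤ) ∣ v.ord u) :
    ∃ m : ℤ, W u = WithZero.exp ((n : ℤ) * m) := by
  by_cases hnt : ∃ f, f ≠ 0 ∧ W f < 1
  · obtain ⟨v, e, -, h⟩ := CL.exists_place_of_valuation W hK hnt
    obtain ⟨k, hk⟩ := hdiv v
    refine ⟨-((e : ℤ) * k), ?_⟩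
    rw [h u hu, hk]
    congr 1
    ring
  · refine ⟨0, ?_⟩
    rw [mul_zero, WithZero.exp_zero]
    push Not at hnt
    refine le_antisymm ?_ (hnt u hu)
    have h1 := hnt u⁻¹ (inv_ne_zero hu)
    rw [map_inv₀] at h1
    have hWu : W u ≠ 0 := (Valuation.ne_zero_iff W).mpr hu
    have := mul_le_mul_left h1 (W u)
    rwa [one_mul, inv_mul_cancel₀ hWu] at this

/-- If `φ` is a Laurent expansion on the function field `F`, constants having order `0`, then `n`
divides the order of the expansion of every `u` with `n ∣ div u`. -/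
theorem KumOrd.dvd_order {K F C : Type*} [Field K] [Field F] [Algebra K F] [Field C]
    (φ : F →+* LaurentSeries C) (hK : ∀ a : K, a ≠ 0 → (φ (algebraMap K F a)).order = 0)
    (n : ℕ) (u : F) (hu : u ≠ 0) (hdiv : ∀ v : Place K F, (n : ℤ) ∣ v.ord u) :
    (n : ℤ) ∣ (φ u).order := by
  have hne : ∀ f : F, f ≠ 0 → φ f ≠ 0 := fun f hf => (map_ne_zero φ).mpr hf
  obtain ⟨m, hm⟩ := KumOrd.exists_exp_mul ((lval C).comap φ) (K := K) (fun a ha => by
    rw [Valuation.comap_apply, lval_of_ne_zero (hne _ ((map_ne_zero _).mpr ha)), hK a ha, neg_zero,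
      WithZero.exp_zero]) n u hu hdiv
  rw [Valuation.comap_apply, lval_of_ne_zero (hne u hu), WithZero.exp_inj] at hm
  exact ⟨-m, by linarith⟩

section KumOrd
variable {N : ℕ} [NeZero N]

theorem dvd_order_wexpL (n : ℕ) (u : FN N) (hu : u ≠ 0)
    (hdiv : ∀ v : Place Kbar (FN N), (n : ℤ) ∣ v.ord u) (τ₀ : ℍ) :
    (n : ℤ) ∣ (wexpL N τ₀ (Psi N u)).order := by
  refine KumOrd.dvd_order (K := Kbar) ((wexpL N τ₀).comp (Psi N).toRingHom) (fun a ha => ?_)
    n u hu hdiv
  show (wexpL N τ₀ (Psi N (algebraMap Kbar (FN N) a))).order = 0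
  rw [AlgHom.commutes, wexpL_algebraMap_Kbar, HahnSeries.order_C]

theorem dvd_order_texpL_smul (n : ℕ) (u : FN N) (hu : u ≠ 0)
    (hdiv : ∀ v : Place Kbar (FN N), (n : ℤ) ∣ v.ord u) (γ : SL(2, ℤ)) :
    (n : ℤ) ∣ (texpL N (γ • Psi N u)).order := by
  refine KumOrd.dvd_order (K := Kbar) ((texpL N).toRingHom.comp
    ((MulSemiringAction.toRingHom SL(2, ℤ) (LN N) γ).comp (Psi N).toRingHom)) (fun a ha => ?_)
    n u hu hdiv
  show (texpL N (γ • Psi N (algebraMap Kbar (FN N) a))).order = 0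
  rw [AlgHom.commutes, smul_algebraMap_Kbar, AlgHom.commutes,
    algebraMap_laurentSeries_eq_single, HahnSeries.order_single ha]

end KumOrd

end Fermat.Agent.GAL.Mult
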