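/-
Cluster GAL, block M (multiplier map), node M08 (owner helper288).
A holomorphic `n`-th root of an element of `AL N` is admissible; version with the statement of
node M07 as an explicit hypothesis.
-/
import Fermat.Agent.GAL.Mult.Adm
import Fermat.Agent.Lib.HolRoot

set_option autoImplicit false

namespace Fermat.Agent.GAL.Mult

open UpperHalfPlane Filter Topology ModularCurve
open Fermat.Agent.S24 Fermat.Agent.S24.B
open scoped MatrixGroups Real Manifold

/-- The holomorphic `n`-th roots of a given function on `ℍ` form a finite set. -/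
theorem finite_setOf_mdiff_pow_eq {n : ℕ} (hn : 0 < n) (c : ℍ → ℂ) :
    {f : ℍ → ℂ | MDiff f ∧ ∀ τ, f τ ^ n = c τ}.Finite := by
  rcases Set.eq_empty_or_nonempty {f : ℍ → ℂ | MDiff f ∧ ∀ τ, f τ ^ n = c τ} with h | ⟨f₀, hf₀⟩
  · rw [h]
    exact Set.finite_empty
  · refine ((Polynomial.nthRootsFinset n (1 : ℂ)).finite_toSet.image
      (fun ζ : ℂ => fun τ : ℍ => ζ * f₀ τ)).subset ?_
    rintro f ⟨hf, hfc⟩
    obtain ⟨ζ, hζ, hfζ⟩ := Lib.HolRoot.exists_root_of_unity hn.ne' hf hf₀.1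
      (fun τ => by rw [hfc, hf₀.2])
    exact ⟨ζ, by simpa [Polynomial.mem_nthRootsFinset hn] using hζ, (funext hfζ).symm⟩

/-- Node M08 with the conclusion of node M07 (for the level `N` and the exponent `n`) as a
hypothesis. -/
theorem isAdm_of_pow_eq_of {N : ℕ} [NeZero N] {n : ℕ}
    (H : ∀ {f c : ℍ → ℂ}, MDiff f → (∀ τ, f τ ^ n = c τ) → ∀ {s : LaurentSeries Kbar},
      HasTExp N c s → s ≠ 0 → (n : ℤ) ∣ s.order → ∃ s' : LaurentSeries Kbar, HasTExp N f s')
    (hn : 0 < n) {h₀ : ℍ → ℂ} (hh : MDiff h₀)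
    (c : AL N) (hc : c ≠ 0) (hpow : ∀ τ, h₀ τ ^ n = c.1 τ)
    (hord : ∀ γ : SL(2, ℤ), (n : ℤ) ∣ (texp N (γ • c)).order) : IsAdm N h₀ where
  mdiff := hh
  texp γ := by
    refine H (c := (γ⁻¹ • c).1) (mdiff_comp_smul hh (sl γ)) (fun τ => ?_)
      (hasTExp_texp (γ⁻¹ • c)) ?_ (hord γ⁻¹)
    · rw [smul_AL_apply, inv_inv]
      exact hpow _
    · intro h0
      have h1 : γ⁻¹ • c = 0 := texp_injective (by rw [h0, map_zero])
      exact hc ((smul_eq_zero_iff_eq γ⁻¹).mp h1)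
  fin := by
    refine ((finite_orbit c).biUnion
      (fun c' _ => finite_setOf_mdiff_pow_eq hn c'.1)).subset ?_
    rintro _ ⟨γ, rfl⟩
    refine Set.mem_biUnion (x := γ⁻¹ • c) ⟨γ⁻¹, rfl⟩ ⟨mdiff_comp_smul hh (sl γ), fun τ => ?_⟩
    rw [smul_AL_apply, inv_inv]
    exact hpow _

end Fermat.Agent.GAL.Mult
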