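/-
Cluster GAL, block M06 (task 654, owner helper101).
A holomorphic `n`-th root of a periodic function with a nonzero limit at `i∞` is periodic.
-/
import Fermat.Agent.Lib.HolRoot

set_option autoImplicit false

namespace Fermat.Agent.GAL.Mult

open UpperHalfPlane Filter Topology
open scoped Manifold

/-- translation by a real number is holomorphic on `ℍ` (precomposition form) -/
theorem mdiff_comp_vadd {g : ℍ → ℂ} (hg : MDiff g) (p : ℝ) : MDiff (fun τ : ℍ => g (p +ᵥ τ)) := by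
  rw [UpperHalfPlane.mdifferentiable_iff] at hg ⊢
  have h1 : DifferentiableOn ℂ (fun z : ℂ => (g ∘ ofComplex) ((p : ℂ) + z)) {z : ℂ | 0 < z.im} := by
    refine hg.comp (by fun_prop) ?_
    intro z hz
    simpa using hz
  refine h1.congr ?_
  intro z hz
  have hz' : 0 < ((p : ℂ) + z).im := by simpa using hz
  simp only [Function.comp_apply]
  rw [UpperHalfPlane.ofComplex_apply_of_im_pos hz, UpperHalfPlane.ofComplex_apply_of_im_pos hz']
  congr 1

/-- the horizontal line through `τ₀` is a continuous path in `ℍ` -/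
theorem continuous_vadd_left (τ₀ : ℍ) : Continuous (fun t : ℝ => t +ᵥ τ₀) := by
  rw [UpperHalfPlane.isEmbedding_coe.continuous_iff]
  have : ((↑) : ℍ → ℂ) ∘ (fun t : ℝ => t +ᵥ τ₀) = fun t : ℝ => (t : ℂ) + (τ₀ : ℂ) := by
    funext t
    simp
  rw [this]
  fun_prop

theorem periodic_of_pow_eq {n : ℕ} (hn : 0 < n) {p : ℝ} {g c : ℍ → ℂ} (hg : MDiff g)
    (hgc : ∀ τ, g τ ^ n = c τ) (hper : ∀ τ : ℍ, c (p +ᵥ τ) = c τ) {c₀ : ℂ} (hc₀ : c₀ ≠ 0)
    (hlim : Tendsto c atImInfty (𝓝 c₀)) : ∀ τ : ℍ, g (p +ᵥ τ) = g τ := by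
  have hn0 : n ≠ 0 := hn.ne'
  obtain ⟨ζ, -, hζ⟩ := Fermat.Agent.Lib.HolRoot.exists_root_of_unity hn0
    (mdiff_comp_vadd hg p) hg (fun τ => by rw [hgc, hgc, hper])
  -- a horizontal line on which `c` is close to `c₀`
  have hnorm : 0 < ‖c₀‖ := norm_pos_iff.mpr hc₀
  have hev : ∀ᶠ τ in atImInfty, c τ ∈ Metric.ball c₀ ‖c₀‖ := hlim (Metric.ball_mem_nhds _ hnorm)
  obtain ⟨A, hA⟩ := (UpperHalfPlane.atImInfty_mem _).mp hev
  let τ₀ : ℍ := ⟨Complex.mk 0 (max A 1), by simp⟩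
  have him : ∀ t : ℝ, A ≤ (t +ᵥ τ₀).im := by
    intro t
    rw [UpperHalfPlane.vadd_im]
    exact le_max_left A 1
  have hgcont : Continuous g := hg.continuous
  have hpath := continuous_vadd_left τ₀
  have hgp : Continuous (fun t : ℝ => g (t +ᵥ τ₀)) := hgcont.comp hpath
  have hcp : Continuous (fun t : ℝ => c (t +ᵥ τ₀)) := by
    have : (fun t : ℝ => c (t +ᵥ τ₀)) = fun t : ℝ => g (t +ᵥ τ₀) ^ n := by
      funext t
      rw [hgc]
    rw [this]
    exact hgp.pow n
  have hslit : ∀ t : ℝ, c (t +ᵥ τ₀) / c₀ ∈ Complex.slitPlane := by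
    intro t
    have h1 : c (t +ᵥ τ₀) ∈ Metric.ball c₀ ‖c₀‖ := hA _ (him t)
    have h2 : ‖c (t +ᵥ τ₀) / c₀ - 1‖ < 1 := by
      have : c (t +ᵥ τ₀) / c₀ - 1 = (c (t +ᵥ τ₀) - c₀) / c₀ := by
        field_simp
      rw [this, norm_div, div_lt_one hnorm]
      simpa [dist_eq_norm] using h1
    have := Complex.mem_slitPlane_of_norm_lt_one h2
    simpa using this
  -- the branch of the root
  let R : ℝ → ℂ := fun t => Complex.exp (Complex.log (c (t +ᵥ τ₀) / c₀) / n)
  have hRcont : Continuous R := by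
    refine Complex.continuous_exp.comp ?_
    refine Continuous.div_const ?_ _
    exact (hcp.div_const _).clog hslit
  have hR0 : ∀ t, R t ≠ 0 := fun t => Complex.exp_ne_zero _
  have hRn : ∀ t, R t ^ n = c (t +ᵥ τ₀) / c₀ := by
    intro t
    have h0 : c (t +ᵥ τ₀) / c₀ ≠ 0 := Complex.slitPlane_ne_zero (hslit t)
    show Complex.exp _ ^ n = _
    rw [← Complex.exp_nat_mul, mul_div_cancel₀ _ (Nat.cast_ne_zero.mpr hn0), Complex.exp_log h0]
  let T : Set ℂ := {z : ℂ | z ^ n = c₀}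
  have hTfin : T.Finite := by
    have hpoly : (Polynomial.X ^ n - Polynomial.C c₀ : Polynomial ℂ) ≠ 0 :=
      Polynomial.X_pow_sub_C_ne_zero hn c₀
    refine ((Polynomial.X ^ n - Polynomial.C c₀ : Polynomial ℂ).roots.toFinset.finite_toSet).subset ?_
    intro z hz
    have hz' : z ^ n = c₀ := hz
    simp [Polynomial.mem_roots hpoly, hz']
  have hF : Continuous (fun t : ℝ => g (t +ᵥ τ₀) / R t) := hgp.div hRcont hR0
  have hmaps : Set.MapsTo (fun t : ℝ => g (t +ᵥ τ₀) / R t) Set.univ T := by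
    intro t _
    show (g (t +ᵥ τ₀) / R t) ^ n = c₀
    have h0 : c (t +ᵥ τ₀) ≠ 0 := by
      intro h
      have := Complex.slitPlane_ne_zero (hslit t)
      rw [h, zero_div] at this
      exact this rfl
    rw [div_pow, hgc, hRn]
    field_simp
  have hconst : g (p +ᵥ τ₀) / R p = g ((0 : ℝ) +ᵥ τ₀) / R 0 :=
    isPreconnected_univ.constant_of_mapsTo hTfin.isDiscrete hF.continuousOn hmaps (Set.mem_univ p) (Set.mem_univ 0)
  have hRp : R p = R 0 := by
    show Complex.exp _ = Complex.exp _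
    rw [zero_vadd, hper]
  rw [hRp, zero_vadd, div_left_inj' (hR0 0)] at hconst
  have hg0 : g τ₀ ≠ 0 := by
    intro h
    have h1 := hgc τ₀
    rw [h, zero_pow hn0] at h1
    have := Complex.slitPlane_ne_zero (hslit 0)
    rw [zero_vadd, ← h1, zero_div] at this
    exact this rfl
  have hζ1 : ζ = 1 := by
    have := hζ τ₀
    rw [hconst] at this
    exact (mul_eq_right₀ hg0).mp this.symm
  intro τ
  have := hζ τ
  simpa [hζ1] using this

end Fermat.Agent.GAL.Mult
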