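/-
Cluster GAL, block M (multiplier map), node M07 (owner helper274).
A holomorphic `n`-th root of a function with a `t`-expansion of order divisible by `n` has a
`t`-expansion with coefficients in `ℚ̄`.
-/
import Fermat.Agent.S24.B.TExpBasic
import Fermat.Agent.S28.Analytic.NiceH
import Fermat.Agent.GAL.Mult.FormalRoot
import Fermat.Agent.GAL.Mult.RootPeriodic

set_option autoImplicit false

namespace Fermat.Agent.GAL.Mult

open UpperHalfPlane Filter Topology
open Fermat.Agent.S24 Fermat.Agent.S28.Analytic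
open scoped Manifold

local notation "𝕢" => Function.Periodic.qParam

/-! ### auxiliary analytic facts -/

theorem rootTExp_mdiff_qParam_zpow (h : ℝ) (k : ℤ) : MDiff (fun τ : ℍ => 𝕢 h τ ^ k) := by
  rw [UpperHalfPlane.mdifferentiable_iff]
  have h1 : DifferentiableOn ℂ (fun z : ℂ => 𝕢 h z ^ k) {z | 0 < z.im} :=
    (Function.Periodic.differentiable_qParam (h := h)).differentiableOn.zpow
      (Or.inl fun x _ => Function.Periodic.qParam_ne_zero _)
  refine h1.congr fun z hz => ?_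
  simp only [Function.comp_apply]
  rw [ofComplex_apply_of_im_pos hz]

theorem rootTExp_qParam_vadd {h : ℝ} (hh : h ≠ 0) (τ : ℍ) :
    𝕢 h ((h +ᵥ τ : ℍ) : ℂ) = 𝕢 h τ := by
  have hh' : (h : ℂ) ≠ 0 := by exact_mod_cast hh
  rw [coe_vadd, Function.Periodic.qParam, Function.Periodic.qParam,
    ← Complex.exp_periodic (2 * Real.pi * Complex.I * τ / h)]
  congr 1
  field_simp
  ring

theorem rootTExp_periodic_comp {G : ℍ → ℂ} {h : ℝ} (hG : ∀ w : ℍ, G (h +ᵥ w) = G w) :
    Function.Periodic (G ∘ ofComplex) (h : ℂ) := by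
  intro w
  by_cases hw : 0 < w.im
  · have hw' : 0 < (w + h).im := by simpa using hw
    simp only [Function.comp_apply, ofComplex_apply_of_im_pos hw', ofComplex_apply_of_im_pos hw]
    rw [← hG ⟨w, hw⟩]
    congr 1
    ext
    simp [add_comm]
  · have hw0 : w.im ≤ 0 := not_lt.mp hw
    have hw' : (w + h).im ≤ 0 := by simpa using hw0
    simp [ofComplex_apply_of_im_nonpos hw', ofComplex_apply_of_im_nonpos hw0]

/-- a function with a `t`-expansion is periodic -/
theorem rootTExp_hasTExp_vadd {N : ℕ} [NeZero N] {c : ℍ → ℂ} {s : LaurentSeries Kbar}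
    (hs : HasTExp N c s) (τ : ℍ) : c ((N : ℝ) +ᵥ τ) = c τ := by
  have h1 := hs ((N : ℝ) +ᵥ τ)
  rw [rootTExp_qParam_vadd (by exact_mod_cast NeZero.ne N)] at h1
  exact h1.unique (hs τ)

/-- `t`-expansions without polar part, in terms of power series -/
theorem rootTExp_hasTExp_coe_iff {N : ℕ} {g : ℍ → ℂ} (p : PowerSeries Kbar) :
    HasTExp N g (p : LaurentSeries Kbar) ↔
      ∀ τ : ℍ, HasSum (fun m : ℕ => iota (p.coeff m) * 𝕢 N τ ^ m) (g τ) := by
  refine forall_congr' fun τ => ?_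
  have := (Function.Injective.hasSum_iff (a := g τ)
    (f := fun n : ℤ => iota ((p : LaurentSeries Kbar).coeff n) * 𝕢 N τ ^ n)
    (g := (Nat.cast : ℕ → ℤ)) Nat.cast_injective (by
      intro x hx
      have hx0 : x < 0 := by
        by_contra hx0
        exact hx ⟨x.toNat, by simp [Int.toNat_of_nonneg (not_lt.mp hx0)]⟩
      simp [PowerSeries.coeff_coe, hx0]))
  rw [← this]
  simp [Function.comp_def]

/-- an `n`-th root of a function bounded at `i∞` is bounded at `i∞` -/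
theorem rootTExp_bdd {n : ℕ} (hn : 0 < n) {g c : ℍ → ℂ} (hgc : ∀ τ, g τ ^ n = c τ) {c₀ : ℂ}
    (hlim : Tendsto c atImInfty (𝓝 c₀)) : IsBoundedAtImInfty g := by
  have h1 : ∀ᶠ τ in atImInfty, ‖c τ‖ < ‖c₀‖ + 1 :=
    (hlim.norm).eventually (gt_mem_nhds (by linarith))
  rw [IsBoundedAtImInfty, BoundedAtFilter, Asymptotics.isBigO_iff]
  refine ⟨‖c₀‖ + 1, h1.mono fun τ hτ => ?_⟩
  have hB : (1 : ℝ) ≤ ‖c₀‖ + 1 := by linarith [norm_nonneg c₀]
  simp only [Pi.one_apply, norm_one, mul_one]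
  by_contra hlt
  rw [not_le] at hlt
  have h2 : (‖c₀‖ + 1) ^ n < ‖g τ‖ ^ n := pow_lt_pow_left₀ hlt (by linarith) hn.ne'
  have h3 : ‖c₀‖ + 1 ≤ (‖c₀‖ + 1) ^ n := le_self_pow₀ hB hn.ne'
  rw [← norm_pow, hgc] at h2
  linarith

/-! ### the algebraic step -/

/-- in a domain containing a primitive `n`-th root of unity, `P ^ n = Q ^ n` implies
`P = ζ ^ k * Q`. -/
theorem rootTExp_eq_pow_mul {R : Type*} [CommRing R] [IsDomain R] {n : ℕ} (hn : 0 < n) {ζ : R}
    (hζ : IsPrimitiveRoot ζ n) {P Q : R} (h : P ^ n = Q ^ n) : ∃ k : ℕ, P = ζ ^ k * Q := by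
  have h1 := hζ.pow_sub_pow_eq_prod_sub_mul P Q hn
  rw [h, sub_self] at h1
  obtain ⟨μ, hμ, h2⟩ := Finset.prod_eq_zero_iff.mp h1.symm
  have hμ1 : μ ^ n = 1 := (Polynomial.mem_nthRootsFinset hn 1).mp hμ
  have : NeZero n := ⟨hn.ne'⟩
  obtain ⟨k, -, rfl⟩ := hζ.eq_pow_of_pow_eq_one hμ1
  exact ⟨k, sub_eq_zero.mp h2⟩

/-! ### the main statement, with M05 and M06 as hypotheses -/

/-- statement of node M05 -/
def FormalRootStatement : Prop :=
  ∀ (n : ℕ), 0 < n → ∀ s : LaurentSeries Kbar, s ≠ 0 → (n : ℤ) ∣ s.order →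
    ∃ r : LaurentSeries Kbar, r ^ n = s

/-- statement of node M06 -/
def RootPeriodicStatement : Prop :=
  ∀ {n : ℕ}, 0 < n → ∀ {p : ℝ} {g c : ℍ → ℂ}, MDiff g → (∀ τ, g τ ^ n = c τ) →
    (∀ τ : ℍ, c (p +ᵥ τ) = c τ) → ∀ {c₀ : ℂ}, c₀ ≠ 0 → Tendsto c atImInfty (𝓝 c₀) →
    ∀ τ : ℍ, g (p +ᵥ τ) = g τ

/-- the case of order zero -/
theorem rootTExp_unit (h5 : FormalRootStatement) (h6 : RootPeriodicStatement) {N : ℕ} [NeZero N]
    {n : ℕ} (hn : 0 < n) {g c : ℍ → ℂ} (hg : MDiff g) (hgc : ∀ τ, g τ ^ n = c τ)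
    {p : PowerSeries Kbar} (hp : HasTExp N c (p : LaurentSeries Kbar)) (hp0 : p.coeff 0 ≠ 0) :
    ∃ r : PowerSeries Kbar, HasTExp N g (r : LaurentSeries Kbar) := by
  have hN : (0 : ℝ) < (N : ℝ) := by exact_mod_cast Nat.pos_of_ne_zero (NeZero.ne N)
  -- the limit of `c`
  have hlim : Tendsto c atImInfty (𝓝 (iota (p.coeff 0))) := by
    have := hp.tendsto (by intro k hk; simp [PowerSeries.coeff_coe, hk])
    simpa [PowerSeries.coeff_coe] using this
  have hc0 : iota (p.coeff 0) ≠ 0 := by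
    intro h0
    exact hp0 (iota_injective (by rw [h0, map_zero]))
  -- `g` is nice
  have hper : ∀ τ : ℍ, g ((N : ℝ) +ᵥ τ) = g τ :=
    h6 hn hg hgc (rootTExp_hasTExp_vadd hp) hc0 hlim
  have hnice : NiceH (N : ℝ) g := ⟨rootTExp_periodic_comp hper, hg, rootTExp_bdd hn hgc hlim⟩
  set P : PowerSeries ℂ := qExpansion (N : ℝ) g with hP
  -- `P ^ n = iota p`
  have hgn : g ^ n = c := funext fun τ => by simpa using hgc τ
  have hPn : P ^ n = PowerSeries.map iota p := by
    rw [hP, ← hnice.qExp_pow hN n]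
    ext m
    rw [PowerSeries.coeff_map]
    refine (hnice.pow n).coeff_unique hN (c := fun m => iota (p.coeff m)) (fun τ => ?_) m
    rw [hgn]
    simpa [smul_eq_mul] using (rootTExp_hasTExp_coe_iff p).mp hp τ
  -- the formal root
  have hpL : (p : LaurentSeries Kbar) ≠ 0 := by
    intro h0
    apply hp0
    have := congrArg (fun x : LaurentSeries Kbar => x.coeff 0) h0
    simpa [PowerSeries.coeff_coe] using this
  have hordp : (p : LaurentSeries Kbar).order = 0 := by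
    apply le_antisymm
    · apply HahnSeries.order_le_of_coeff_ne_zero
      simpa [PowerSeries.coeff_coe] using hp0
    · rw [HahnSeries.le_order_iff_forall hpL]
      intro k hk
      simp [PowerSeries.coeff_coe, hk]
  obtain ⟨r, hr⟩ := h5 n hn (p : LaurentSeries Kbar) hpL (by rw [hordp]; exact dvd_zero _)
  have hr0 : r ≠ 0 := by
    rintro rfl
    rw [zero_pow hn.ne'] at hr
    exact hpL hr.symm
  have hordr : r.order = 0 := by
    have h1 : (r ^ n).order = n • r.order := HahnSeries.order_pow r n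
    rw [hr, hordp, nsmul_eq_mul] at h1
    have hn' : (n : ℤ) ≠ 0 := by exact_mod_cast hn.ne'
    rcases mul_eq_zero.mp h1.symm with h | h
    · exact absurd h hn'
    · exact h
  set rp : PowerSeries Kbar := LaurentSeries.powerSeriesPart r with hrp
  have hrcoe : (rp : LaurentSeries Kbar) = r := by
    have := LaurentSeries.single_order_mul_powerSeriesPart r
    rw [hordr] at this
    rw [← this]
    simp [hrp]
  have hrpn : rp ^ n = p := by
    apply HahnSeries.ofPowerSeries_injective (Γ := ℤ) (R := Kbar)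
    rw [map_pow]
    exact (congrArg (· ^ n) hrcoe).trans hr
  -- a primitive root of unity
  have : NeZero ((n : ℕ) : Kbar) := ⟨by exact_mod_cast hn.ne'⟩
  obtain ⟨ω, hω⟩ := HasEnoughRootsOfUnity.exists_primitiveRoot Kbar n
  have hω' : IsPrimitiveRoot (PowerSeries.C (iota ω) : PowerSeries ℂ) n :=
    (hω.map_of_injective iota_injective).map_of_injective
      (f := (PowerSeries.C : ℂ →+* PowerSeries ℂ)) PowerSeries.C_injective
  have hPQ : P ^ n = (PowerSeries.map iota rp) ^ n := by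
    rw [hPn, ← map_pow, hrpn]
  obtain ⟨k, hk⟩ := rootTExp_eq_pow_mul hn hω' hPQ
  refine ⟨PowerSeries.C (ω ^ k) * rp, ?_⟩
  rw [rootTExp_hasTExp_coe_iff]
  intro τ
  have h1 := hnice.hasSum hN τ
  have h2 : ∀ m : ℕ, (qExpansion (N : ℝ) g).coeff m = iota ((PowerSeries.C (ω ^ k) * rp).coeff m) := by
    intro m
    rw [← hP, hk, ← PowerSeries.coeff_map, (PowerSeries.map iota).map_mul, PowerSeries.map_C,
      map_pow, map_pow]
  simpa [h2, smul_eq_mul] using h1

theorem exists_hasTExp_of_pow_eq_aux (h5 : FormalRootStatement) (h6 : RootPeriodicStatement)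
    {N : ℕ} [NeZero N] {n : ℕ} (hn : 0 < n) {f c : ℍ → ℂ}
    (hf : MDiff f) (hfc : ∀ τ, f τ ^ n = c τ) {s : LaurentSeries Kbar} (hs : HasTExp N c s)
    (hs0 : s ≠ 0) (hord : (n : ℤ) ∣ s.order) : ∃ s' : LaurentSeries Kbar, HasTExp N f s' := by
  obtain ⟨m1, hm1⟩ := hord
  set p : PowerSeries Kbar := LaurentSeries.powerSeriesPart s with hp
  have hq0 : ∀ τ : ℍ, 𝕢 (N : ℝ) τ ≠ 0 := fun τ => Function.Periodic.qParam_ne_zero _
  -- the normalised functions
  have hct : HasTExp N ((fun τ : ℍ => iota 1 * 𝕢 (N : ℝ) τ ^ (-s.order)) * c)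
      (p : LaurentSeries Kbar) := by
    have := (HasTExp.single (N := N) (-s.order) 1).mul hs
    rwa [← LaurentSeries.ofPowerSeries_powerSeriesPart] at this
  have hp0 : p.coeff 0 ≠ 0 := by
    rw [hp, LaurentSeries.powerSeriesPart_coeff]
    simpa using fun h => hs0 (HahnSeries.coeff_order_eq_zero.mp h)
  have hg : MDiff ((fun τ : ℍ => 𝕢 (N : ℝ) τ ^ (-m1)) * f) :=
    (rootTExp_mdiff_qParam_zpow (N : ℝ) (-m1)).mul hf
  have hgc : ∀ τ, ((fun τ : ℍ => 𝕢 (N : ℝ) τ ^ (-m1)) * f) τ ^ n =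
      ((fun τ : ℍ => iota 1 * 𝕢 (N : ℝ) τ ^ (-s.order)) * c) τ := by
    intro τ
    simp only [Pi.mul_apply, map_one, one_mul]
    rw [mul_pow, hfc, ← zpow_natCast, ← zpow_mul, hm1]
    congr 2
    ring
  obtain ⟨r, hr⟩ := rootTExp_unit h5 h6 hn hg hgc hct hp0
  refine ⟨HahnSeries.single m1 1 * (r : LaurentSeries Kbar), ?_⟩
  have := (HasTExp.single (N := N) m1 1).mul hr
  convert this using 1
  funext τ
  simp only [Pi.mul_apply, map_one, one_mul]
  rw [← mul_assoc, ← zpow_add₀ (hq0 τ), add_neg_cancel, zpow_zero, one_mul]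

/-- **M07.** A holomorphic `n`-th root of a function with a `t`-expansion of order divisible by
`n` has a `t`-expansion. -/
theorem exists_hasTExp_of_pow_eq {N : ℕ} [NeZero N] {n : ℕ} (hn : 0 < n) {f c : ℍ → ℂ}
    (hf : MDiff f) (hfc : ∀ τ, f τ ^ n = c τ) {s : LaurentSeries Kbar} (hs : HasTExp N c s)
    (hs0 : s ≠ 0) (hord : (n : ℤ) ∣ s.order) : ∃ s' : LaurentSeries Kbar, HasTExp N f s' :=
  exists_hasTExp_of_pow_eq_aux (fun n hn s hs hord => exists_pow_eq_laurent n hn s hs hord)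
    (fun hn _ _ _ hg hgc hper _ hc₀ hlim => periodic_of_pow_eq hn hg hgc hper hc₀ hlim)
    hn hf hfc hs hs0 hord

end Fermat.Agent.GAL.Mult
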