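/-
Cluster GAL, block M (multiplier map), node M08 (owner helper288).
A holomorphic `n`-th root of an element of `AL N` is admissible.
-/
import Fermat.Agent.GAL.Mult.RootAdmAux
import Fermat.Agent.GAL.Mult.RootTExp

set_option autoImplicit false

namespace Fermat.Agent.GAL.Mult

open UpperHalfPlane Filter Topology ModularCurve
open Fermat.Agent.S24 Fermat.Agent.S24.B
open scoped MatrixGroups Real Manifold

theorem isAdm_of_pow_eq {N : ℕ} [NeZero N] {n : ℕ} (hn : 0 < n) {h₀ : ℍ → ℂ} (hh : MDiff h₀)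
    (c : AL N) (hc : c ≠ 0) (hpow : ∀ τ, h₀ τ ^ n = c.1 τ)
    (hord : ∀ γ : SL(2, ℤ), (n : ℤ) ∣ (texp N (γ • c)).order) : IsAdm N h₀ :=
  isAdm_of_pow_eq_of (fun hf hfc _ hs hs0 hd => exists_hasTExp_of_pow_eq hn hf hfc hs hs0 hd)
    hn hh c hc hpow hord

end Fermat.Agent.GAL.Mult
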