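/-
Cluster GAL, block M (multiplier map), node M10 (helper204).
Kummer elements of `FN N` (divisor divisible by `n`) have `n`-th roots in `LL N`.
-/
import Fermat.Agent.GAL.Mult.RootAdm
import Fermat.Agent.GAL.Mult.KumOrd

set_option autoImplicit false

namespace Fermat.Agent.GAL.Mult

open UpperHalfPlane Filter Topology ModularCurve AlgebraicCurve CongruenceSubgroup
open Fermat.Agent.S24 Fermat.Agent.S24.B
open scoped MatrixGroups Real Manifold

/-- a power series whose image in Laurent series has order divisible by `n` has order `n * m`. -/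
theorem exists_order_eq_of_dvd {C : Type*} [Field C] {n : ℕ} (s : PowerSeries C) (hs : s ≠ 0)
    (h : (n : ℤ) ∣ (HahnSeries.ofPowerSeries ℤ C s).order) :
    ∃ m : ℕ, s.order = ((n * m : ℕ) : ℕ∞) := by
  obtain ⟨k, hk⟩ : ∃ k : ℕ, s.order = (k : ℕ∞) := by
    have h1 : s.order ≠ ⊤ := by
      rwa [Ne, PowerSeries.order_eq_top]
    exact ⟨s.order.toNat, (ENat.natCast_toNat h1).symm⟩
  rw [order_ofPowerSeries s k hk, Int.natCast_dvd_natCast] at h
  obtain ⟨m, rfl⟩ := h
  exact ⟨m, hk⟩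

theorem exists_root_LL {N : ℕ} [NeZero N] {n : ℕ} (hn : 0 < n) (u : FN N) (hu : u ≠ 0)
    (hdiv : ∀ v : Place Kbar (FN N), (n : ℤ) ∣ v.ord u) : ∃ h : LL N, h ^ n = PsiL N u := by
  obtain ⟨a, b, hb, hab⟩ := IsFractionRing.div_surjective (A := AL N) (Psi N u)
  have hb0 : b ≠ 0 := nonZeroDivisors.ne_zero hb
  have hbL : algebraMap (AL N) (LN N) b ≠ 0 := by
    simpa using hb0
  have hPu : Psi N u ≠ 0 := by
    simpa using hu
  set c : AL N := a * b ^ (n - 1) with hc
  have hcL : algebraMap (AL N) (LN N) c = Psi N u * algebraMap (AL N) (LN N) b ^ n := by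
    rw [hc, map_mul, map_pow, ← hab, div_mul_eq_mul_div, eq_div_iff hbL, mul_assoc, ← pow_succ,
      Nat.sub_add_cancel hn]
  have hcL0 : algebraMap (AL N) (LN N) c ≠ 0 := by
    rw [hcL]
    exact mul_ne_zero hPu (pow_ne_zero _ hbL)
  have hc0 : c ≠ 0 := by
    intro h
    rw [h, map_zero] at hcL0
    exact hcL0 rfl
  -- orders at the points of the upper half plane
  have hord : ∀ τ : ℍ, ∃ m : ℕ,
      analyticOrderAt (fun z : ℂ => c.1 (ofComplex z)) (τ : ℂ) = ((n * m : ℕ) : ℕ∞) := by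
    intro τ
    have h1 : (wexp N τ c).order = ordAt τ c.1 := order_wexp τ c
    have h2 : HahnSeries.ofPowerSeries ℤ ℂ (wexp N τ c) =
        wexpL N τ (Psi N u) * wexpL N τ (algebraMap (AL N) (LN N) b) ^ n := by
      rw [← wexpL_algebraMap, hcL, map_mul, map_pow]
    have h3 : wexp N τ c ≠ 0 := by
      intro h
      rw [h, map_zero] at h2
      exact mul_ne_zero ((map_ne_zero _).mpr hPu) (pow_ne_zero _ ((map_ne_zero _).mpr hbL)) h2.symm
    obtain ⟨m, hm⟩ := exists_order_eq_of_dvd (n := n) (wexp N τ c) h3 (by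
      rw [h2, HahnSeries.order_mul ((map_ne_zero _).mpr hPu)
        (pow_ne_zero _ ((map_ne_zero _).mpr hbL)), HahnSeries.order_pow]
      exact dvd_add (dvd_order_wexpL n u hu hdiv τ) ⟨_, by rw [nsmul_eq_mul]⟩)
    exact ⟨m, by rw [← hm, h1]; rfl⟩
  obtain ⟨h₀, hh₀, hpow⟩ := Fermat.Agent.Lib.HolRoot.exists_root hn.ne' c.1
    (Stubs.mdiff_of_mem_AL c.2) hord
  -- orders at the cusps
  have hordT : ∀ γ : SL(2, ℤ), (n : ℤ) ∣ (texp N (γ • c)).order := by
    intro γ
    have h2 : texp N (γ • c) =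
        texpL N (γ • Psi N u) * texpL N (γ • algebraMap (AL N) (LN N) b) ^ n := by
      rw [← texpL_algebraMap, ← smul_algebraMap_AL, hcL, smul_mul', smul_pow', map_mul, map_pow]
    have e1 : texpL N (γ • Psi N u) ≠ 0 := (map_ne_zero _).mpr ((smul_ne_zero_iff_ne γ).mpr hPu)
    have e2 : texpL N (γ • algebraMap (AL N) (LN N) b) ≠ 0 :=
      (map_ne_zero _).mpr ((smul_ne_zero_iff_ne γ).mpr hbL)
    rw [h2, HahnSeries.order_mul e1 (pow_ne_zero _ e2), HahnSeries.order_pow]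
    exact dvd_add (dvd_order_texpL_smul n u hu hdiv γ) ⟨_, by rw [nsmul_eq_mul]⟩
  have hAdm : IsAdm N h₀ := isAdm_of_pow_eq hn hh₀ c hc0 hpow hordT
  have hbLL : algebraMap (AB N) (LL N) (alToAB N b) ≠ 0 := by
    rw [← lnToLL_algebraMap]
    exact (map_ne_zero _).mpr hbL
  refine ⟨algebraMap (AB N) (LL N) ⟨h₀, hAdm⟩ / algebraMap (AB N) (LL N) (alToAB N b), ?_⟩
  have e : (⟨h₀, hAdm⟩ : AB N) ^ n = alToAB N c := by
    apply Subtype.ext
    funext τ
    exact hpow τ
  rw [div_pow, ← map_pow, e, ← lnToLL_algebraMap, ← lnToLL_algebraMap, hcL, map_mul, map_pow,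
    mul_div_assoc, div_self (pow_ne_zero _ (by rw [lnToLL_algebraMap]; exact hbLL)), mul_one,
    PsiL_apply]

end Fermat.Agent.GAL.Mult
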