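/-
Cluster GAL, block M (multiplier map), node M11 (owner helper222).
Formal properties of the relation `IsMult` (part 2: existence, and roots in `LL N`).
-/
import Fermat.Agent.GAL.Mult.IsMult
import Fermat.Agent.GAL.Mult.Root

set_option autoImplicit false

namespace Fermat.Agent.GAL.Mult

open UpperHalfPlane Filter Topology ModularCurve AlgebraicCurve CongruenceSubgroup IntermediateField
open Fermat.Agent.S24 Fermat.Agent.S24.B Fermat.Agent.Lib.HeckeHom
open scoped MatrixGroups Real Manifold WithZero OnePoint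

section IsMult
variable {N n : ℕ} [NeZero N] [NeZero n]

theorem exists_isMult (u : FN N) (hu : u ≠ 0)
    (hdiv : ∀ v : Place Kbar (FN N), (n : ℤ) ∣ v.ord u) :
    ∃ ψ : Additive (Gamma0 N) →+ ZMod n, IsMult N n u ψ := by
  obtain ⟨h, hh⟩ := exists_root_LL (Nat.pos_of_ne_zero (NeZero.ne n)) u hu hdiv
  have h1 : (embL N h) ^ n = real N u := by rw [← map_pow, hh, real_apply]
  obtain ⟨ψ, hψ⟩ := exists_isMult_of_root u hu (embL N h) h1
  refine ⟨ψ, embL N h, ?_, h1, hψ⟩
  intro h0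
  rw [h0, zero_pow (NeZero.ne n)] at h1
  exact real_ne_zero hu h1.symm

/-- the root can be taken in `LL N` -/
theorem IsMult.exists_LL {u : FN N} {ψ : Additive (Gamma0 N) →+ ZMod n} (h : IsMult N n u ψ)
    (hdiv : ∀ v : Place Kbar (FN N), (n : ℤ) ∣ v.ord u) :
    ∃ h₁ : LL N, h₁ ≠ 0 ∧ h₁ ^ n = PsiL N u ∧ ∀ γ : Gamma0 N, (γ : SL(2, ℤ))⁻¹ • h₁ =
      algebraMap Kbar (LL N) ((zetaK n : Kbar) ^ (ψ (Additive.ofMul γ)).val) * h₁ := by
  obtain ⟨x, hx0, hxn, hx⟩ := h
  have hu : u ≠ 0 := by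
    rintro rfl
    rw [map_zero] at hxn
    exact hx0 (pow_eq_zero_iff (NeZero.ne n) |>.1 hxn)
  have hinj : Function.Injective (embL N) := (embL N).toRingHom.injective
  obtain ⟨h₀, hh₀⟩ := exists_root_LL (Nat.pos_of_ne_zero (NeZero.ne n)) u hu hdiv
  have h1 : (embL N h₀) ^ n = real N u := by rw [← map_pow, hh₀, real_apply]
  have h00 : embL N h₀ ≠ 0 := by
    intro h0
    rw [h0, zero_pow (NeZero.ne n)] at h1
    exact real_ne_zero hu h1.symm
  obtain ⟨a, ha⟩ := exists_zeta_mul_of_pow_eq (n := n) h00 (hxn.trans h1.symm)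
  set h₁ : LL N := algebraMap Kbar (LL N) ((zetaK n : Kbar) ^ a.val) * h₀ with hh₁
  have he : embL N h₁ = x := by
    rw [hh₁, map_mul, AlgHom.commutes, ← ha]
  refine ⟨h₁, ?_, ?_, fun γ => ?_⟩
  · intro h0
    rw [h0, map_zero] at he
    exact hx0 he.symm
  · apply hinj
    rw [map_pow, he, hxn, real_apply]
  · apply hinj
    rw [embL_smul, map_inv, he, hx, map_mul, AlgHom.commutes, he]

end IsMult

end Fermat.Agent.GAL.Mult
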