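/-
Cluster GAL, block M (multiplier map), node M13 (owner helper222).
Injectivity of the multiplier map: a Kummer element with trivial multiplier system is an
`n`-th power.
-/
import Fermat.Agent.GAL.Mult.IsMultLL
import Fermat.Agent.GAL.Mult.FixedField

set_option autoImplicit false

namespace Fermat.Agent.GAL.Mult

open UpperHalfPlane Filter Topology ModularCurve AlgebraicCurve CongruenceSubgroup IntermediateField
open Fermat.Agent.S24 Fermat.Agent.S24.B Fermat.Agent.Lib.HeckeHom
open scoped MatrixGroups Real Manifold WithZero OnePoint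

theorem IsMult.exists_pow_eq {N n : ℕ} [NeZero N] [NeZero n] {u : FN N} (h : IsMult N n u 0)
    (hdiv : ∀ v : Place Kbar (FN N), (n : ℤ) ∣ v.ord u) : ∃ v : FN N, u = v ^ n := by
  obtain ⟨h₁, -, hpow, hγ⟩ := h.exists_LL hdiv
  have hfix : ∀ γ ∈ Gamma0 N, γ • h₁ = h₁ := by
    intro γ hγ'
    have h2 := hγ ⟨γ⁻¹, inv_mem hγ'⟩
    rw [AddMonoidHom.zero_apply, zeta_pow_val_zero, map_one, one_mul] at h2
    simpa using h2
  obtain ⟨v, hv⟩ := exists_PsiL_eq_of_fixed h₁ hfix
  refine ⟨v, (PsiL N).toRingHom.injective ?_⟩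
  show PsiL N u = PsiL N (v ^ n)
  rw [map_pow, hv, hpow]

end Fermat.Agent.GAL.Mult
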