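/-
Cluster GAL, block M (multiplier map), node M04 (owner helper85).
Valuations of Kummer elements in abstract function fields, and the local triviality of the
multiplier of an `n`-th root.
-/
import Fermat.Agent.S24.CL.PlaceOfVal
import Fermat.Agent.S24.B.Laurent

set_option autoImplicit false

namespace Fermat.Agent.GAL.Mult

open AlgebraicCurve
open Fermat.Agent.S24 Fermat.Agent.S24.B
open scoped WithZero

/-- a valuation without elements of valuation `< 1` is trivial -/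
theorem valuation_eq_one_of_trivial {F : Type*} [Field F] (W : Valuation F ℤᵐ⁰)
    (hnt : ¬ ∃ f, f ≠ 0 ∧ W f < 1) (u : F) (hu : u ≠ 0) : W u = 1 := by
  push Not at hnt
  have h1 : 1 ≤ W u := hnt u hu
  have h2 : 1 ≤ W u⁻¹ := hnt _ (inv_ne_zero hu)
  have hWu : W u ≠ 0 := (Valuation.ne_zero_iff W).mpr hu
  rw [map_inv₀, one_le_inv₀ (zero_lt_iff.mpr hWu)] at h2
  exact le_antisymm h2 h1

theorem exists_exp_mul_of_dvd {K F : Type*} [Field K] [Field F] [Algebra K F]
    (W : Valuation F ℤᵐ⁰) (hK : ∀ a : K, a ≠ 0 → W (algebraMap K F a) = 1) (n : ℕ) (u : F)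
    (hu : u ≠ 0) (hdiv : ∀ v : Place K F, (n : ℤ) ∣ v.ord u) :
    ∃ m : ℤ, W u = WithZero.exp ((n : ℤ) * m) := by
  by_cases hnt : ∃ f, f ≠ 0 ∧ W f < 1
  · obtain ⟨v, e, -, hW⟩ := CL.exists_place_of_valuation W hK hnt
    obtain ⟨k, hk⟩ := hdiv v
    refine ⟨-((e : ℤ) * k), ?_⟩
    rw [hW u hu, hk]
    congr 1
    ring
  · refine ⟨0, ?_⟩
    rw [valuation_eq_one_of_trivial W hnt u hu, mul_zero, WithZero.exp_zero]

/-- if the twist by `ν` multiplies a nonzero series `s` by a constant `c`, then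
`c = ν ^ (order s)`. -/
theorem eq_zpow_order_of_twist_eq {C : Type*} [Field C] (ν : Cˣ) (c : C) (s : LaurentSeries C)
    (hs : s ≠ 0) (h : twist ν s = HahnSeries.C c * s) : c = ((ν ^ s.order : Cˣ) : C) := by
  have h1 := congrArg (fun g : LaurentSeries C => g.coeff s.order) h
  simp only [twist_coeff, HahnSeries.C_mul_eq_smul, HahnSeries.coeff_smul, smul_eq_mul] at h1
  have h2 : s.coeff s.order ≠ 0 := HahnSeries.coeff_order_eq_zero.not.2 hs
  exact (mul_right_cancel₀ h2 h1).symm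

/-- **local triviality of the multiplier.**  `φ` is a local expansion on a field `M`, `θ` an
endomorphism of `M` acting on expansions by the twist by `ν` and fixing the subfield `Φ(F)`.  If
`h ^ n = Φ u` with `n ∣ div u` and `θ h = ξ h` with `ξ` a constant, then `ξ = 1`. -/
theorem twist_trivial {K F M C : Type*} [Field K] [Field F] [Algebra K F] [Field M] [Field C]
    (Φ : F →+* M) (φ : M →+* LaurentSeries C)
    (hφK : ∀ a : K, a ≠ 0 → (φ (Φ (algebraMap K F a))).order = 0)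
    (θ : M →+* M) (ν : Cˣ) (hθ : ∀ x : M, φ (θ x) = twist ν (φ x))
    (hfix : ∀ f : F, θ (Φ f) = Φ f) (n : ℕ) (hn : 0 < n) (u : F) (hu : u ≠ 0)
    (hdiv : ∀ v : Place K F, (n : ℤ) ∣ v.ord u) (h : M) (hh : h ^ n = Φ u)
    (ξ : M) (c : C) (hξ : φ ξ = HahnSeries.C c) (hθh : θ h = ξ * h) : c = 1 := by
  -- nonvanishing
  have hne : ∀ f : F, f ≠ 0 → φ (Φ f) ≠ 0 := fun f hf =>
    (map_ne_zero φ).mpr ((map_ne_zero Φ).mpr hf)
  have hh0 : h ≠ 0 := by
    rintro rfl
    rw [zero_pow hn.ne'] at hh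
    exact (map_ne_zero Φ).mpr hu hh.symm
  have hs : φ h ≠ 0 := (map_ne_zero φ).mpr hh0
  -- `c = ν ^ m`
  have hc : c = ((ν ^ (φ h).order : Cˣ) : C) := by
    refine eq_zpow_order_of_twist_eq ν c (φ h) hs ?_
    rw [← hθ, hθh, map_mul, hξ]
  -- `n * m = order (φ (Φ u))`
  have hord : (φ (Φ u)).order = (n : ℤ) * (φ h).order := by
    rw [← hh, map_pow, HahnSeries.order_pow, nsmul_eq_mul]
  have hn' : (n : ℤ) ≠ 0 := by exact_mod_cast hn.ne'
  -- the valuation
  set W : Valuation F ℤᵐ⁰ := (lval C).comap (φ.comp Φ) with hWdef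
  have hW : ∀ f : F, f ≠ 0 → W f = WithZero.exp (-(φ (Φ f)).order) := fun f hf => by
    rw [hWdef, Valuation.comap_apply, RingHom.comp_apply, lval_of_ne_zero (hne f hf)]
  have hK : ∀ a : K, a ≠ 0 → W (algebraMap K F a) = 1 := fun a ha => by
    rw [hW _ ((map_ne_zero (algebraMap K F)).mpr ha), hφK a ha, neg_zero, WithZero.exp_zero]
  by_cases hnt : ∃ f, f ≠ 0 ∧ W f < 1
  · obtain ⟨v, e, -, hWv⟩ := CL.exists_place_of_valuation W hK hnt
    have hoe : ∀ f : F, f ≠ 0 → (φ (Φ f)).order = (e : ℤ) * v.ord f := fun f hf => by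
      have := (hW f hf).symm.trans (hWv f hf)
      rw [WithZero.exp_inj] at this
      omega
    obtain ⟨π, hπ⟩ := FF.exists_ord_eq_one v
    have hπ0 : π ≠ 0 := FF.ne_zero_of_ord_ne_zero v (by rw [hπ]; exact one_ne_zero)
    -- `ν ^ e = 1`
    have hνe : (1 : C) = ((ν ^ (φ (Φ π)).order : Cˣ) : C) := by
      refine eq_zpow_order_of_twist_eq ν 1 (φ (Φ π)) (hne π hπ0) ?_
      rw [← hθ, hfix, map_one, one_mul]
    rw [hoe π hπ0, hπ, mul_one] at hνe
    have hνe' : ν ^ (e : ℤ) = 1 := by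
      ext
      rw [← hνe, Units.val_one]
    obtain ⟨k, hk⟩ := hdiv v
    have hm : (φ h).order = (e : ℤ) * k := by
      have h1 : (n : ℤ) * (φ h).order = (n : ℤ) * ((e : ℤ) * k) := by
        rw [← hord, hoe u hu, hk]
        ring
      exact mul_left_cancel₀ hn' h1
    rw [hc, hm, zpow_mul, hνe', one_zpow, Units.val_one]
  · have h1 := valuation_eq_one_of_trivial W hnt u hu
    rw [hW u hu, ← WithZero.exp_zero, WithZero.exp_inj, hord] at h1
    have hm : (φ h).order = 0 := by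
      have h2 : (n : ℤ) * (φ h).order = 0 := by omega
      exact (mul_eq_zero.mp h2).resolve_left hn'
    rw [hc, hm, zpow_zero, Units.val_one]

end Fermat.Agent.GAL.Mult
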