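/-
Cluster GAL, block M (multiplier map), node M12: the multiplier system kills elliptic and
parabolic elements.  Architect helper269; proofs helper82.
-/
import Fermat.Agent.GAL.Mult.IsMultLL
import Fermat.Agent.GAL.Mult.DivVal
import Fermat.Agent.S24.B.Fixed

set_option autoImplicit false

namespace Fermat.Agent.GAL.Mult

open UpperHalfPlane Filter Topology ModularCurve AlgebraicCurve CongruenceSubgroup
open Fermat.Agent.S24 Fermat.Agent.S24.B
open scoped MatrixGroups Real Manifold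

namespace KillsAux

variable {N n : ℕ} [NeZero N] [NeZero n]

theorem ne_zero_of_isMult {u : FN N} {ψ : Additive (Gamma0 N) →+ ZMod n} (h : IsMult N n u ψ) :
    u ≠ 0 := by
  obtain ⟨h₀, hh0, hpow, -⟩ := h
  rintro rfl
  rw [map_zero] at hpow
  exact hh0 (pow_eq_zero_iff (NeZero.ne n) |>.mp hpow)

theorem eq_zero_of_zeta_pow_eq_one {a : ZMod n} (h : (zetaK n : Kbar) ^ a.val = 1) : a = 0 := by
  apply zeta_pow_val_injective (n := n)
  rw [h]
  simp

/-- the elliptic case -/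
theorem kills_of_rotation {u : FN N} {ψ : Additive (Gamma0 N) →+ ZMod n} (h : IsMult N n u ψ)
    (hdiv : ∀ v : Place Kbar (FN N), (n : ℤ) ∣ v.ord u) (σ : SL(2, ℤ)) (τ₀ : ℍ) (μ : ℂˣ)
    (hσ : ∀ᶠ w in 𝓝 (0 : ℂ),
      σ⁻¹ • ofComplex (discInv τ₀ w) = ofComplex (discInv τ₀ ((μ : ℂ) * w))) : Kills ψ σ := by
  intro k g hg
  have hu := ne_zero_of_isMult h
  obtain ⟨h₀, hh0, hpow, hmul⟩ := h
  set η : Gamma0 N := ⟨g⁻¹ * σ ^ k * g, hg⟩ with hη
  set a : ZMod n := ψ (Additive.ofMul η⁻¹) with ha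
  have hηg : (sl σ) ^ k * sl g = sl g * sl (η : SL(2, ℤ)) := by
    rw [← map_pow, ← map_mul, ← map_mul]
    congr 1
    show σ ^ k * g = g * (g⁻¹ * σ ^ k * g)
    group
  have hm : sl (η : SL(2, ℤ)) • h₀ = algebraMap Kbar MM ((zetaK n : Kbar) ^ a.val) * h₀ := by
    have := hmul η⁻¹
    rwa [Subgroup.coe_inv, map_inv, inv_inv] at this
  have hσ' : ∀ᶠ w in 𝓝 (0 : ℂ),
      (sl σ)⁻¹ • ofComplex (discInv τ₀ w) = ofComplex (discInv τ₀ ((μ : ℂ) * w)) := by
    filter_upwards [hσ] with w hw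
    rw [← map_inv, sl_smul]
    exact hw
  have key := twist_trivial (K := Kbar) (F := FN N) (M := MM) (C := ℂ)
    ((MulSemiringAction.toRingHom GL(2, ℝ)⁺ MM (sl g)).comp (real N).toRingHom)
    (wexpM τ₀)
    (fun c hc => by
      show (wexpM τ₀ (sl g • real N (algebraMap Kbar (FN N) c))).order = 0
      rw [AlgHom.commutes, smul_algebraMap_Kbar_MM, wexpM_algebraMap_Kbar]
      exact HahnSeries.order_C)
    (MulSemiringAction.toRingHom GL(2, ℝ)⁺ MM ((sl σ) ^ k)) (μ ^ k)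
    (fun x => wexpM_pow_smul τ₀ (sl σ) μ hσ' k x)
    (fun f => by
      show (sl σ) ^ k • sl g • real N f = sl g • real N f
      rw [smul_smul, hηg, mul_smul, smul_real_of_mem_Gamma0 _ η.2])
    n (Nat.pos_of_ne_zero (NeZero.ne n)) u hu hdiv (sl g • h₀)
    (by
      show (sl g • h₀) ^ n = sl g • real N u
      rw [← smul_pow', hpow])
    (algebraMap Kbar MM ((zetaK n : Kbar) ^ a.val)) (algebraMap Kbar ℂ ((zetaK n : Kbar) ^ a.val))
    (wexpM_algebraMap_Kbar τ₀ _)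
    (by
      show (sl σ) ^ k • sl g • h₀ = _
      rw [smul_smul, hηg, mul_smul, hm, smul_mul', smul_algebraMap_Kbar_MM])
  have h1 : (zetaK n : Kbar) ^ a.val = 1 := by
    apply (algebraMap Kbar ℂ).injective
    rw [key, map_one]
  have h2 : a = 0 := eq_zero_of_zeta_pow_eq_one h1
  have h3 : ψ (Additive.ofMul η) = -a := by
    rw [ha, ofMul_inv, map_neg, neg_neg]
  rw [h3, h2, neg_zero]

/-- the parabolic case, from a root in `LL N` -/
theorem kills_T_of_LL {u : FN N} (hu : u ≠ 0) {ψ : Additive (Gamma0 N) →+ ZMod n}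
    (hdiv : ∀ v : Place Kbar (FN N), (n : ℤ) ∣ v.ord u)
    (hLL : ∃ h₁ : LL N, h₁ ≠ 0 ∧ h₁ ^ n = PsiL N u ∧ ∀ γ : Gamma0 N, (γ : SL(2, ℤ))⁻¹ • h₁ =
      algebraMap Kbar (LL N) ((zetaK n : Kbar) ^ (ψ (Additive.ofMul γ)).val) * h₁) :
    Kills ψ ModularGroup.T := by
  intro k g hg
  obtain ⟨h₀, hh0, hpow, hmul⟩ := hLL
  set η : Gamma0 N := ⟨g⁻¹ * ModularGroup.T ^ k * g, hg⟩ with hη
  set a : ZMod n := ψ (Additive.ofMul η⁻¹) with ha
  have hηg : ModularGroup.T ^ k * g = g * (η : SL(2, ℤ)) := by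
    show ModularGroup.T ^ k * g = g * (g⁻¹ * ModularGroup.T ^ k * g)
    group
  have hm : (η : SL(2, ℤ)) • h₀ = algebraMap Kbar (LL N) ((zetaK n : Kbar) ^ a.val) * h₀ := by
    have := hmul η⁻¹
    rwa [Subgroup.coe_inv, inv_inv] at this
  have key := twist_trivial (K := Kbar) (F := FN N) (M := LL N) (C := Kbar)
    ((MulSemiringAction.toRingHom SL(2, ℤ) (LL N) g).comp (PsiL N).toRingHom)
    (texpLL N).toRingHom
    (fun c hc => by
      show (texpLL N (g • PsiL N (algebraMap Kbar (FN N) c))).order = 0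
      rw [AlgHom.commutes, smul_algebraMap_Kbar_LL, AlgHom.commutes,
        algebraMap_laurentSeries_eq_single]
      exact HahnSeries.order_single (by simpa using hc) |>.trans rfl)
    (MulSemiringAction.toRingHom SL(2, ℤ) (LL N) (ModularGroup.T ^ k)) ((zetaK N)⁻¹ ^ k)
    (fun x => texpLL_T_pow_smul k x)
    (fun f => by
      show ModularGroup.T ^ k • g • PsiL N f = g • PsiL N f
      rw [smul_smul, hηg, mul_smul, smul_PsiL_of_mem_Gamma0 _ η.2])
    n (Nat.pos_of_ne_zero (NeZero.ne n)) u hu hdiv (g • h₀)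
    (by
      show (g • h₀) ^ n = g • PsiL N u
      rw [← smul_pow', hpow])
    (algebraMap Kbar (LL N) ((zetaK n : Kbar) ^ a.val)) ((zetaK n : Kbar) ^ a.val)
    (by
      show texpLL N (algebraMap Kbar (LL N) _) = _
      rw [AlgHom.commutes, algebraMap_laurentSeries_eq_single]
      rfl)
    (by
      show ModularGroup.T ^ k • g • h₀ = _
      rw [smul_smul, hηg, mul_smul, hm, smul_mul', smul_algebraMap_Kbar_LL])
  have h2 : a = 0 := eq_zero_of_zeta_pow_eq_one key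
  have h3 : ψ (Additive.ofMul η) = -a := by
    rw [ha, ofMul_inv, map_neg, neg_neg]
  rw [h3, h2, neg_zero]

end KillsAux

section Kills
variable {N n : ℕ} [NeZero N] [NeZero n]

theorem IsMult.kills_S {u : FN N} {ψ : Additive (Gamma0 N) →+ ZMod n} (h : IsMult N n u ψ)
    (hdiv : ∀ v : Place Kbar (FN N), (n : ℤ) ∣ v.ord u) : Kills ψ ModularGroup.S :=
  KillsAux.kills_of_rotation h hdiv ModularGroup.S UpperHalfPlane.I (-1) (by
    simpa using S_inv_discInv)

theorem IsMult.kills_ST {u : FN N} {ψ : Additive (Gamma0 N) →+ ZMod n} (h : IsMult N n u ψ)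
    (hdiv : ∀ v : Place Kbar (FN N), (n : ℤ) ∣ v.ord u) :
    Kills ψ (ModularGroup.S * ModularGroup.T) :=
  KillsAux.kills_of_rotation h hdiv (ModularGroup.S * ModularGroup.T) rho
    (Units.mk0 (rho : ℂ) rho_ne_zero) ST_inv_discInv

theorem IsMult.kills_T {u : FN N} {ψ : Additive (Gamma0 N) →+ ZMod n} (h : IsMult N n u ψ)
    (hdiv : ∀ v : Place Kbar (FN N), (n : ℤ) ∣ v.ord u) : Kills ψ ModularGroup.T :=
  KillsAux.kills_T_of_LL (KillsAux.ne_zero_of_isMult h) hdiv (h.exists_LL hdiv)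

end Kills

end Fermat.Agent.GAL.Mult
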