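/-
Cluster GAL, block M (multiplier map), node M17: the multiplier map on the Kummer model.
Architect helper269; proofs helper82.

`Main.exists_multHom_of` is the statement with the nodes M10/M11 (`exists_isMult`), M12 (`kills_*`)
and M13 (`exists_pow_eq`) as explicit hypotheses.
-/
import Fermat.Agent.GAL.Mult.Kills
import Fermat.Agent.GAL.Mult.Inj
import Fermat.Agent.GAL.E.Defs

set_option autoImplicit false

namespace Fermat.Agent.GAL.Mult

open UpperHalfPlane ModularCurve AlgebraicCurve CongruenceSubgroup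
open Fermat.Agent.S24 Fermat.Agent.S24.B
open scoped MatrixGroups

namespace Main

variable (N n : ℕ) [NeZero N] [NeZero n]
variable (hex : ∀ u : FN N, u ≠ 0 → (∀ v : Place Kbar (FN N), (n : ℤ) ∣ v.ord u) →
  ∃ ψ : Additive (Gamma0 N) →+ ZMod n, IsMult N n u ψ)

/-- the multiplier system of a Kummer unit (by choice). -/
noncomputable def mult (u : E.kum N n) : Additive (Gamma0 N) →+ ZMod n :=
  (hex ((u : (FN N)ˣ) : FN N) (u : (FN N)ˣ).ne_zero u.2).choose

theorem isMult_mult (u : E.kum N n) : IsMult N n ((u : (FN N)ˣ) : FN N) (mult N n hex u) :=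
  (hex ((u : (FN N)ˣ) : FN N) (u : (FN N)ˣ).ne_zero u.2).choose_spec

theorem mult_mul (u v : E.kum N n) :
    mult N n hex (u * v) = mult N n hex u + mult N n hex v := by
  refine (isMult_mult N n hex (u * v)).unique ?_
  have h := (isMult_mult N n hex u).mul (isMult_mult N n hex v)
  simpa using h

theorem mult_of_mem_pows (u : E.kum N n) (hu : (u : (FN N)ˣ) ∈ E.pows N n) :
    mult N n hex u = 0 := by
  obtain ⟨w, hw⟩ := hu
  refine (isMult_mult N n hex u).unique ?_
  have h := isMult_pow (N := N) (n := n) (w : FN N) w.ne_zero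
  have h2 : ((u : (FN N)ˣ) : FN N) = (w : FN N) ^ n := by
    rw [← hw]
    simp
  rw [h2]
  exact h

theorem mult_one : mult N n hex 1 = 0 :=
  mult_of_mem_pows N n hex 1 (E.pows N n).one_mem

/-- `mult` as a monoid homomorphism. -/
noncomputable def multHom : E.kum N n →* Multiplicative (Additive (Gamma0 N) →+ ZMod n) where
  toFun u := Multiplicative.ofAdd (mult N n hex u)
  map_one' := by rw [mult_one]; rfl
  map_mul' u v := by rw [mult_mul]; rfl

/-- the multiplier map on the Kummer model. -/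
noncomputable def mu : E.W N n →+ (Additive (Gamma0 N) →+ ZMod n) :=
  MonoidHom.toAdditiveLeft (QuotientGroup.lift _ (multHom N n hex) (by
    intro u hu
    rw [Subgroup.mem_subgroupOf] at hu
    show Multiplicative.ofAdd (mult N n hex u) = 1
    rw [mult_of_mem_pows N n hex u hu]
    rfl))

theorem mu_cls (u : E.kum N n) : mu N n hex (E.cls u) = mult N n hex u := rfl

include hex in
/-- M17 with the nodes M10-M13 as hypotheses. -/
theorem exists_multHom_of
    (hinj : ∀ u : FN N, IsMult N n u 0 → (∀ v : Place Kbar (FN N), (n : ℤ) ∣ v.ord u) →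
      ∃ v : FN N, u = v ^ n)
    (hkills : ∀ (u : FN N) (ψ : Additive (Gamma0 N) →+ ZMod n), IsMult N n u ψ →
      (∀ v : Place Kbar (FN N), (n : ℤ) ∣ v.ord u) →
      Kills ψ ModularGroup.S ∧ Kills ψ (ModularGroup.S * ModularGroup.T) ∧
        Kills ψ ModularGroup.T) :
    ∃ μ : E.W N n →+ (Additive (Gamma0 N) →+ ZMod n),
      (∀ u : E.kum N n, IsMult N n ((u : (FN N)ˣ) : FN N) (μ (E.cls u))) ∧
      Function.Injective μ ∧
      (∀ w, Kills (μ w) ModularGroup.S ∧ Kills (μ w) (ModularGroup.S * ModularGroup.T) ∧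
        Kills (μ w) ModularGroup.T) := by
  refine ⟨mu N n hex, fun u => ?_, ?_, fun w => ?_⟩
  · rw [mu_cls]
    exact isMult_mult N n hex u
  · rw [injective_iff_map_eq_zero]
    intro w hw
    obtain ⟨u, rfl⟩ := E.cls_surjective w
    rw [mu_cls] at hw
    have h := isMult_mult N n hex u
    rw [hw] at h
    obtain ⟨v, hv⟩ := hinj _ h u.2
    rw [E.cls_eq_zero_iff]
    exact E.mem_pows_of_eq_pow hv
  · obtain ⟨u, rfl⟩ := E.cls_surjective w
    rw [mu_cls]
    exact hkills _ _ (isMult_mult N n hex u) u.2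

end Main

theorem exists_multHom (N n : ℕ) [NeZero N] [NeZero n] :
    ∃ μ : E.W N n →+ (Additive (Gamma0 N) →+ ZMod n),
      (∀ u : E.kum N n, IsMult N n ((u : (FN N)ˣ) : FN N) (μ (E.cls u))) ∧
      Function.Injective μ ∧
      (∀ w, Kills (μ w) ModularGroup.S ∧ Kills (μ w) (ModularGroup.S * ModularGroup.T) ∧
        Kills (μ w) ModularGroup.T) :=
  Main.exists_multHom_of N n (fun u hu hdiv => exists_isMult u hu hdiv)
    (fun _ h hdiv => h.exists_pow_eq hdiv)
    (fun _ _ h hdiv => ⟨h.kills_S hdiv, h.kills_ST hdiv, h.kills_T hdiv⟩)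

end Fermat.Agent.GAL.Mult
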