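/-
Cluster GAL, block M (multiplier map), node M14 (helper139).
Formal Hecke equivariance of the multiplier system in `MM`.
-/
import Fermat.Agent.GAL.Mult.Defs

set_option autoImplicit false

namespace Fermat.Agent.GAL.Mult

open UpperHalfPlane CongruenceSubgroup
open Fermat.Agent.S24 Fermat.Agent.S24.B Fermat.Agent.Lib.HeckeHom
open scoped MatrixGroups

/-- shortcut instance (the generic search times out) -/
noncomputable local instance instDMAHecke : DistribMulAction GL(2, ℝ)⁺ MM :=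
  instActionMM.toDistribMulAction

/-- shortcut instance (the generic search times out) -/
noncomputable local instance instMAHecke : MulAction GL(2, ℝ)⁺ MM :=
  instDMAHecke.toMulAction

/-- shortcut instance (the generic search times out) -/
noncomputable local instance instSAHecke : SemigroupAction GL(2, ℝ)⁺ MM :=
  instMAHecke.toSemigroupAction

/-- sum version of `ζ ^ (a + b).val = ζ ^ a.val * ζ ^ b.val` -/
theorem pow_val_sum_of_pow_eq_one {R ι : Type*} [CommMonoid R] {n : ℕ} [NeZero n] {z : R}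
    (hz : z ^ n = 1) (s : Finset ι) (f : ι → ZMod n) :
    z ^ (∑ i ∈ s, f i).val = ∏ i ∈ s, z ^ (f i).val := by
  have hmod : ∀ a : ℕ, z ^ a = z ^ (a % n) := by
    intro a
    conv_lhs => rw [← Nat.div_add_mod a n, pow_add, pow_mul, hz, one_pow, one_mul]
  have h1 : (∑ i ∈ s, f i).val = (∑ i ∈ s, (f i).val) % n := by
    rw [← ZMod.val_natCast, Nat.cast_sum]
    simp only [ZMod.natCast_zmod_val]
  rw [Finset.prod_pow_eq_pow_sum, h1, ← hmod]

theorem IsMult.hecke {N n : ℕ} [NeZero N] [NeZero n] {ι : Type*} [Fintype ι]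
    {α : ι → GL (Fin 2) ℝ} (hα : IsHeckeFamily (incl N) α) (hdet : ∀ i, 0 < (α i).det.val)
    {u u' : FN N}
    (huu' : real N u' = ∏ i, (⟨α i, hdet i⟩ : GL(2, ℝ)⁺)⁻¹ • real N u)
    {ψ : Additive (Gamma0 N) →+ ZMod n} (h : IsMult N n u ψ) :
    IsMult N n u' (hα.heckeHom ψ) := by
  obtain ⟨h₀, h₀ne, h₀pow, h₀γ⟩ := h
  set a : ι → GL(2, ℝ)⁺ := fun i => ⟨α i, hdet i⟩ with ha
  refine ⟨∏ i, (a i)⁻¹ • h₀, ?_, ?_, ?_⟩
  · rw [Finset.prod_ne_zero_iff]
    intro i _
    exact (smul_ne_zero_iff_ne _).mpr h₀ne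
  · rw [← Finset.prod_pow, huu']
    refine Finset.prod_congr rfl fun i _ => ?_
    rw [← smul_pow', h₀pow]
  · intro γ
    have hspec : ∀ i, a i * sl (γ : SL(2, ℤ)) =
        sl ((hα.coc γ i : Gamma0 N) : SL(2, ℤ)) * a (hα.perm γ i) := by
      intro i
      apply Subtype.ext
      have := hα.spec γ i
      simpa [ha, incl_apply, coe_sl] using this
    have hstep : ∀ i, (sl (γ : SL(2, ℤ)))⁻¹ • (a i)⁻¹ • h₀ =
        algebraMap Kbar MM ((zetaK n : Kbar) ^ (ψ (Additive.ofMul (hα.coc γ i))).val) *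
          (a (hα.perm γ i))⁻¹ • h₀ := by
      intro i
      rw [← mul_smul, ← mul_inv_rev, hspec i, mul_inv_rev, mul_smul, h₀γ, smul_mul',
        smul_algebraMap_Kbar_MM]
    rw [Finset.smul_prod']
    simp only [hstep]
    rw [Finset.prod_mul_distrib, ← map_prod, IsHeckeFamily.heckeHom_apply]
    have hz : (zetaK n : Kbar) ^ n = 1 := by
      have := congrArg Units.val (isPrimitiveRoot_zetaK n).pow_eq_one
      simpa using this
    rw [pow_val_sum_of_pow_eq_one hz]
    congr 1
    exact Equiv.prod_comp (hα.permEquiv γ) (fun i => (a i)⁻¹ • h₀)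

end Fermat.Agent.GAL.Mult
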