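/-
Cluster GAL, block M (multiplier map), node M16 (owner helper215).
From the formal product formula (block E, `qExpand_heckeF`) to the product formula in `MM`.
-/
import Fermat.Agent.GAL.Mult.Defs

set_option autoImplicit false

namespace Fermat.Agent.GAL.Mult

open UpperHalfPlane Filter Topology ModularCurve CongruenceSubgroup
open Fermat.Agent.S24 Fermat.Agent.S24.B Fermat.Agent.Lib.HeckeHom
open scoped MatrixGroups Real Manifold OnePoint

theorem repT_det_pos (ℓ : ℕ) [NeZero ℓ] (x : OnePoint (ZMod ℓ)) : 0 < (repT ℓ x).det.val := by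
  induction x using OnePoint.rec with
  | infty => rw [repT_infty]; simpa using ModularForm.det_heckeDiagMatrix_pos ℓ
  | coe j => rw [repT_coe]; simpa using ModularForm.det_heckeMatrix_pos ℓ j.val

namespace HeckeBridge

theorem prod_zmod_val {M : Type*} [CommMonoid M] (ℓ : ℕ) [NeZero ℓ] (F : ℕ → M) :
    ∏ j : ZMod ℓ, F j.val = ∏ b ∈ Finset.range ℓ, F b := by
  obtain ⟨m, rfl⟩ := Nat.exists_eq_succ_of_ne_zero (NeZero.ne ℓ)
  exact Fin.prod_univ_eq_prod_range F (m + 1)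

theorem prod_onePoint {M : Type*} [CommMonoid M] (ℓ : ℕ) [NeZero ℓ]
    (F : OnePoint (ZMod ℓ) → M) :
    ∏ x : OnePoint (ZMod ℓ), F x = F ∞ * ∏ j : ZMod ℓ, F (j : OnePoint (ZMod ℓ)) :=
  Fintype.prod_option F

theorem hasTExp_prod {N : ℕ} {ι : Type*} (t : Finset ι) (F : ι → ℍ → ℂ)
    (S : ι → LaurentSeries Kbar) (h : ∀ i ∈ t, HasTExp N (F i) (S i)) :
    HasTExp N (∏ i ∈ t, F i) (∏ i ∈ t, S i) := by
  classical
  induction t using Finset.induction_on with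
  | empty => simpa using HasTExp.one
  | insert a t ha ih =>
    rw [Finset.prod_insert ha, Finset.prod_insert ha]
    exact (h a (Finset.mem_insert_self a t)).mul
      (ih fun i hi => h i (Finset.mem_insert_of_mem hi))

theorem HasTExp.funext {N : ℕ} {f g : ℍ → ℂ} {s : LaurentSeries Kbar} (hf : HasTExp N f s)
    (hg : HasTExp N g s) : f = g :=
  _root_.funext fun τ => (hf τ).unique (hg τ)

variable (ℓ : ℕ) [NeZero ℓ]

theorem lpos : (0 : ℤ) < (ℓ : ℤ) := by exact_mod_cast Nat.pos_of_ne_zero (NeZero.ne ℓ)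

theorem heckeDiagMatrix_eq_triMat :
    ModularForm.heckeDiagMatrix ℓ = triMat (ℓ : ℤ) 0 1 (lpos ℓ) one_pos := by
  apply Units.ext
  rw [ModularForm.val_heckeDiagMatrix (NeZero.ne ℓ), coe_triMat]
  simp

theorem heckeMatrix_eq_triMat (j : ℕ) :
    ModularForm.heckeMatrix ℓ j = triMat 1 (j : ℤ) (ℓ : ℤ) one_pos (lpos ℓ) := by
  apply Units.ext
  rw [ModularForm.val_heckeMatrix (NeZero.ne ℓ), coe_triMat]
  simp

variable {ℓ}

theorem hasTExp_diag {f : ℍ → ℂ} {s : LaurentSeries Kbar} (h : HasTExp 1 f s) :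
    HasTExp ℓ (fun τ => f (ModularForm.heckeDiagMatrix ℓ • τ)) (qExpand Kbar (ℓ * ℓ) s) := by
  have h1 := hasTExp_tri (N := ℓ) h (ℓ : ℤ) 0 1 (lpos ℓ) one_pos (ℓ * ℓ) (by push_cast; ring) 1
    (by simp)
  rw [twist_one] at h1
  rw [heckeDiagMatrix_eq_triMat]
  exact h1

theorem hasTExp_upper {f : ℍ → ℂ} {s : LaurentSeries Kbar} (h : HasTExp 1 f s) (j : ℕ) :
    HasTExp ℓ (fun τ => f (ModularForm.heckeMatrix ℓ j • τ)) (twist (zetaK ℓ ^ j) s) := by
  have h1 := hasTExp_tri (N := ℓ) h 1 (j : ℤ) (ℓ : ℤ) one_pos (lpos ℓ) 1 (by push_cast; ring)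
    (zetaK ℓ ^ j) (by
      have := iota_zetaK_zpow ℓ (j : ℤ)
      rw [zpow_natCast] at this
      rw [this]
      push_cast
      rfl)
  rw [qExpand_one_apply] at h1
  rw [heckeMatrix_eq_triMat]
  exact h1

theorem hasTExp_level {f : ℍ → ℂ} {s : LaurentSeries Kbar} (h : HasTExp 1 f s) :
    HasTExp ℓ f (qExpand Kbar ℓ s) := by
  have h1 := hasTExp_tri (N := ℓ) h 1 0 1 one_pos one_pos ℓ (by ring) 1 (by simp)
  rw [twist_one] at h1
  have h2 : (fun τ : ℍ => f (triMat 1 0 1 one_pos one_pos • τ)) = f := by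
    funext τ
    congr 1
    apply UpperHalfPlane.ext
    rw [coe_triMat_smul]
    simp
  rwa [h2] at h1

variable (ℓ)

/-- The representatives of `T_ℓ` in `GL(2,ℝ)⁺`. -/
noncomputable def gl (x : OnePoint (ZMod ℓ)) : GL(2, ℝ)⁺ := ⟨repT ℓ x, repT_det_pos ℓ x⟩

/-- The multiplicative Hecke operator on holomorphic functions. -/
noncomputable def PP (f : Hol) : Hol := ∏ x : OnePoint (ZMod ℓ), (gl ℓ x)⁻¹ • f

/-- The formal multiplicative Hecke operator (in the variable `t = q^(1/ℓ)`). -/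
noncomputable def QQ (s : LaurentSeries Kbar) : LaurentSeries Kbar :=
  qExpand Kbar (ℓ * ℓ) s * ∏ b ∈ Finset.range ℓ, twist (zetaK ℓ ^ b) s

theorem QQ_mul (s t : LaurentSeries Kbar) : QQ ℓ (s * t) = QQ ℓ s * QQ ℓ t := by
  unfold QQ
  simp only [map_mul, Finset.prod_mul_distrib]
  ring

variable {ℓ}

theorem coe_PP (f : Hol) :
    (PP ℓ f).1 = ∏ x : OnePoint (ZMod ℓ), fun τ : ℍ => f.1 (repT ℓ x • τ) := by
  unfold PP
  have h : ((∏ x : OnePoint (ZMod ℓ), (gl ℓ x)⁻¹ • f : Hol) : ℍ → ℂ) =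
      ∏ x : OnePoint (ZMod ℓ), (((gl ℓ x)⁻¹ • f : Hol) : ℍ → ℂ) :=
    map_prod Hol.val _ _
  rw [h]
  refine Finset.prod_congr rfl fun x _ => ?_
  funext τ
  show f.1 (((gl ℓ x)⁻¹)⁻¹ • τ) = f.1 (repT ℓ x • τ)
  rw [inv_inv]
  rfl

theorem hasTExp_PP {f : Hol} {s : LaurentSeries Kbar} (h : HasTExp 1 f.1 s) :
    HasTExp ℓ (PP ℓ f).1 (QQ ℓ s) := by
  rw [coe_PP, prod_onePoint, QQ, ← prod_zmod_val ℓ (fun b => twist (zetaK ℓ ^ b) s)]
  refine HasTExp.mul ?_ ?_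
  · exact hasTExp_diag h
  · exact hasTExp_prod _ _ _ fun j _ => hasTExp_upper h j.val

theorem ne_zero_of_hasTExp {N : ℕ} [NeZero N] {f : Hol} {s : LaurentSeries Kbar}
    (h : HasTExp N f.1 s) (hs : s ≠ 0) : f ≠ 0 := by
  rintro rfl
  exact hs (HasTExp.series_eq_zero h)

theorem PP_ne_zero {f : Hol} (hf : f ≠ 0) : PP ℓ f ≠ 0 := by
  unfold PP
  rw [Finset.prod_ne_zero_iff]
  intro x _
  exact (smul_ne_zero_iff_ne _).mpr hf

/-- the product formula in `MM` for a fraction. -/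
theorem prod_smul_mul {r : MM} {a b : Hol} (h : r * algebraMap Hol MM b = algebraMap Hol MM a) :
    (∏ x : OnePoint (ZMod ℓ), (gl ℓ x)⁻¹ • r) * algebraMap Hol MM (PP ℓ b) =
      algebraMap Hol MM (PP ℓ a) := by
  unfold PP
  rw [map_prod, map_prod, ← Finset.prod_mul_distrib]
  refine Finset.prod_congr rfl fun x _ => ?_
  rw [← smul_algebraMap_Hol, ← smul_algebraMap_Hol, ← smul_mul', h]

/-- The statement of node M15. -/
def NiceFrac (N : ℕ) [NeZero N] : Prop :=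
  ∀ u : FN N, ∃ (a b : Hol) (sa sb : LaurentSeries Kbar), HasTExp 1 a.1 sa ∧ HasTExp 1 b.1 sb ∧
    sb ≠ 0 ∧ (u : LaurentSeries Kbar) * sb = sa ∧
      real N u * algebraMap Hol MM b = algebraMap Hol MM a

theorem real_eq_prod_of_niceFrac {N : ℕ} [NeZero N] (hnice : NiceFrac N) (u u' : FN N)
    (hq : qExpand Kbar ℓ (u' : LaurentSeries Kbar) =
      qExpand Kbar (ℓ * ℓ) (u : LaurentSeries Kbar) *
        ∏ b ∈ Finset.range ℓ, twist (zetaK ℓ ^ b) (u : LaurentSeries Kbar)) :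
    real N u' = ∏ x : OnePoint (ZMod ℓ),
      (⟨repT ℓ x, repT_det_pos ℓ x⟩ : GL(2, ℝ)⁺)⁻¹ • real N u := by
  obtain ⟨a, b, sa, sb, ha, hb, hsb, hu, hr⟩ := hnice u
  obtain ⟨a', b', sa', sb', ha', hb', hsb', hu', hr'⟩ := hnice u'
  have hb0 : b ≠ 0 := ne_zero_of_hasTExp hb hsb
  have hb0' : b' ≠ 0 := ne_zero_of_hasTExp hb' hsb'
  have hPb : PP ℓ b ≠ 0 := PP_ne_zero hb0
  -- the identity of series
  have hser : qExpand Kbar ℓ sa' * QQ ℓ sb = qExpand Kbar ℓ sb' * QQ ℓ sa := by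
    rw [← hu', ← hu, map_mul, QQ_mul]
    have : qExpand Kbar ℓ (u' : LaurentSeries Kbar) = QQ ℓ (u : LaurentSeries Kbar) := hq
    rw [this]
    ring
  -- the identity of holomorphic functions
  have hfun : a' * PP ℓ b = b' * PP ℓ a := by
    apply Subtype.ext
    have h1 : HasTExp ℓ (a' * PP ℓ b : Hol).1 (qExpand Kbar ℓ sa' * QQ ℓ sb) :=
      (hasTExp_level ha').mul (hasTExp_PP hb)
    have h2 : HasTExp ℓ (b' * PP ℓ a : Hol).1 (qExpand Kbar ℓ sb' * QQ ℓ sa) :=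
      (hasTExp_level hb').mul (hasTExp_PP ha)
    rw [hser] at h1
    exact HasTExp.funext h1 h2
  have hR := prod_smul_mul (ℓ := ℓ) hr
  have hinj := IsFractionRing.injective Hol MM
  have hne1 : algebraMap Hol MM b' ≠ 0 := by
    rw [Ne, map_eq_zero_iff _ hinj]; exact hb0'
  have hne2 : algebraMap Hol MM (PP ℓ b) ≠ 0 := by
    rw [Ne, map_eq_zero_iff _ hinj]; exact hPb
  have key : real N u' * (algebraMap Hol MM b' * algebraMap Hol MM (PP ℓ b)) =
      (∏ x : OnePoint (ZMod ℓ), (gl ℓ x)⁻¹ • real N u) *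
        (algebraMap Hol MM b' * algebraMap Hol MM (PP ℓ b)) := by
    calc real N u' * (algebraMap Hol MM b' * algebraMap Hol MM (PP ℓ b))
        = algebraMap Hol MM (a' * PP ℓ b) := by rw [← mul_assoc, hr', map_mul]
      _ = algebraMap Hol MM b' * algebraMap Hol MM (PP ℓ a) := by rw [hfun, map_mul]
      _ = _ := by rw [← hR]; ring
  exact mul_right_cancel₀ (mul_ne_zero hne1 hne2) key

end HeckeBridge

end Fermat.Agent.GAL.Mult
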