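/-
Cluster GAL, block M (multiplier map).  TASK GAL-M15 (owner helper237).
Elements of `FN N` are quotients of holomorphic functions having `q`-expansions.
-/
import Fermat.Agent.GAL.Mult.Adm

set_option autoImplicit false

namespace Fermat.Agent.GAL.Mult

open UpperHalfPlane Filter Topology ModularCurve CongruenceSubgroup
open Fermat.Agent.S24 Fermat.Agent.S24.B
open scoped MatrixGroups Real Manifold

namespace NiceFrac

/-- a series supported on the multiples of `n` is of the form `V(q^n)` -/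
theorem exists_qExpand_eq' {R : Type*} [CommRing R] (n : ℕ) [NeZero n] (P : LaurentSeries R)
    (hP : ∀ k : ℤ, ¬ (n : ℤ) ∣ k → P.coeff k = 0) : ∃ V : LaurentSeries R, qExpand R n V = P := by
  have hn : (0 : ℤ) < n := by exact_mod_cast Nat.pos_of_ne_zero (NeZero.ne n)
  have hpwo : (Function.support fun k : ℤ => P.coeff ((n : ℤ) * k)).IsPWO := by
    refine Set.IsWF.isPWO (BddBelow.isWF ⟨min P.order 0, ?_⟩)
    intro k hk
    by_contra hlt
    rw [not_le] at hlt
    have hk0 : k < 0 := lt_of_lt_of_le hlt (min_le_right _ _)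
    have hkB : k < P.order := lt_of_lt_of_le hlt (min_le_left _ _)
    have h2 : (n : ℤ) * k ≤ 1 * k := mul_le_mul_of_nonpos_right (by omega) hk0.le
    exact hk (HahnSeries.coeff_eq_zero_of_lt_order (by omega))
  refine ⟨⟨fun k => P.coeff ((n : ℤ) * k), hpwo⟩, ?_⟩
  ext k
  by_cases hk : (n : ℤ) ∣ k
  · obtain ⟨m, rfl⟩ := hk
    rw [qExpand_coeff_mul]
  · rw [qExpand_coeff_of_not_dvd n _ hk, hP k hk]

variable {N : ℕ} [NeZero N]

/-- The exponents of the `t`-expansion of a function invariant under `T` are divisible by `N`. -/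
theorem dvd_of_coeff_ne_zero' {f : ℍ → ℂ}
    (hinv : ∀ τ : ℍ, f (ModularGroup.T⁻¹ • τ) = f τ) {s : LaurentSeries Kbar}
    (hs : HasTExp N f s) (n : ℤ) (hn : s.coeff n ≠ 0) : (N : ℤ) ∣ n := by
  have h1 := hasTExp_T_inv hs
  have h2 : (fun τ => f (ModularGroup.T⁻¹ • τ)) = f := funext fun τ => hinv τ
  rw [h2] at h1
  have h3 := congrArg (fun x => x.coeff n) (h1.unique hs)
  simp only [twist_coeff] at h3
  have h4 : (((zetaK N)⁻¹ ^ n : Kbarˣ) : Kbar) = 1 := by
    have := mul_right_cancel₀ hn (h3.trans (one_mul _).symm)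
    exact this
  have h5 : (zetaK N) ^ n = 1 := by
    have : (zetaK N)⁻¹ ^ n = 1 := Units.ext h4
    rwa [inv_zpow, inv_eq_one] at this
  exact (isPrimitiveRoot_zetaK N).zpow_eq_one_iff_dvd n |>.mp h5

theorem qParam_pow (τ : ℂ) :
    Function.Periodic.qParam (N : ℝ) τ ^ N = Function.Periodic.qParam ((1 : ℕ) : ℝ) τ := by
  have hN : (N : ℂ) ≠ 0 := by exact_mod_cast NeZero.ne N
  rw [Function.Periodic.qParam, Function.Periodic.qParam, ← Complex.exp_nat_mul]
  congr 1
  push_cast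
  field_simp

/-- an expansion in `t ^ N` is an expansion in `q`. -/
theorem hasTExp_one_of_qExpand {f : ℍ → ℂ} {s : LaurentSeries Kbar}
    (hs : HasTExp N f (qExpand Kbar N s)) : HasTExp 1 f s := by
  intro τ
  have hN : (N : ℤ) ≠ 0 := by exact_mod_cast NeZero.ne N
  have hinj : Function.Injective (fun k : ℤ => (N : ℤ) * k) := fun a b h =>
    mul_left_cancel₀ hN h
  have h := hs τ
  rw [← hinj.hasSum_iff] at h
  · convert h using 2 with k
    simp only [Function.comp_apply]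
    rw [qExpand_coeff_mul, zpow_mul, zpow_natCast, qParam_pow]
  · intro n hn
    have hnd : ¬ (N : ℤ) ∣ n := fun ⟨k, hk⟩ => hn ⟨k, hk.symm⟩
    rw [qExpand_coeff_of_not_dvd N _ hnd, map_zero, zero_mul]

/-- a `T`-invariant function with a `t`-expansion has a `q`-expansion. -/
theorem exists_hasTExp_one {f : ℍ → ℂ} (hinv : ∀ τ : ℍ, f (ModularGroup.T⁻¹ • τ) = f τ)
    {s : LaurentSeries Kbar} (hs : HasTExp N f s) :
    ∃ s₁ : LaurentSeries Kbar, qExpand Kbar N s₁ = s ∧ HasTExp 1 f s₁ := by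
  obtain ⟨s₁, h₁⟩ := exists_qExpand_eq' N s fun k hk => by
    by_contra hne
    exact hk (dvd_of_coeff_ne_zero' hinv hs k hne)
  refine ⟨s₁, h₁, hasTExp_one_of_qExpand (N := N) ?_⟩
  rwa [h₁]

theorem T_mem_Gamma0 : ModularGroup.T ∈ Gamma0 N := by
  rw [Gamma0_mem]
  simp [ModularGroup.T]

instance instSMulDistribClassGamma0 : SMulDistribClass (Gamma0 N) (AL N) (LN N) :=
  ⟨fun g a l => smul_distrib_smul (g : SL(2, ℤ)) a l⟩

/-- `Psi u` is a quotient of `Γ₀(N)`-invariant elements of `AL N`. -/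
theorem exists_fraction (u : FN N) :
    ∃ a b : AL N, b ≠ 0 ∧ ModularGroup.T • a = a ∧ ModularGroup.T • b = b ∧
      Psi N u * algebraMap (AL N) (LN N) b = algebraMap (AL N) (LN N) a := by
  obtain ⟨a, b, hb, ha', hb', h⟩ := exists_invariant_fraction (G := Gamma0 N) (A := AL N)
    (L := LN N) (fun a => (finite_orbit a).subset (by
      rintro _ ⟨γ, rfl⟩
      exact ⟨(γ : SL(2, ℤ)), rfl⟩)) (Psi N u)
    (fun γ => smul_Psi_of_mem_Gamma0 (γ : SL(2, ℤ)) γ.2 u)
  refine ⟨a, b, hb, ha' ⟨_, T_mem_Gamma0⟩, hb' ⟨_, T_mem_Gamma0⟩, ?_⟩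
  have hbL : algebraMap (AL N) (LN N) b ≠ 0 := fun h0 =>
    hb (IsFractionRing.injective (AL N) (LN N) (by rw [h0, map_zero]))
  rw [h, div_mul_cancel₀ _ hbL]

theorem apply_T_inv_smul {a : AL N} (ha : ModularGroup.T • a = a) (τ : ℍ) :
    a.1 (ModularGroup.T⁻¹ • τ) = a.1 τ :=
  congrFun (congrArg Subtype.val ha) τ

end NiceFrac

open NiceFrac in
theorem exists_nice_fraction {N : ℕ} [NeZero N] (u : FN N) :
    ∃ (a b : Hol) (sa sb : LaurentSeries Kbar), HasTExp 1 a.1 sa ∧ HasTExp 1 b.1 sb ∧ sb ≠ 0 ∧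
      (u : LaurentSeries Kbar) * sb = sa ∧ real N u * algebraMap Hol MM b = algebraMap Hol MM a := by
  obtain ⟨a, b, hb, haT, hbT, h⟩ := exists_fraction u
  obtain ⟨sa, hsa, hsa'⟩ := exists_hasTExp_one (apply_T_inv_smul haT) (hasTExp_texp a)
  obtain ⟨sb, hsb, hsb'⟩ := exists_hasTExp_one (apply_T_inv_smul hbT) (hasTExp_texp b)
  refine ⟨abToHol N (alToAB N a), abToHol N (alToAB N b), sa, sb, hsa', hsb', ?_, ?_, ?_⟩
  · rintro rfl
    apply hb
    apply texp_injective
    rw [← hsb, map_zero, map_zero]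
  · apply qExpand_injective (R := Kbar) N
    have h1 := congrArg (texpL N) h
    rw [map_mul, texpL_Psi, texpL_algebraMap, texpL_algebraMap, ← hsa, ← hsb] at h1
    rw [map_mul]
    exact h1
  · have h1 := congrArg (fun x => embL N (lnToLL N x)) h
    simp only [map_mul, lnToLL_algebraMap, embL_algebraMap] at h1
    exact h1

end Fermat.Agent.GAL.Mult
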