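/-
Cluster GAL, block M (multiplier map), node M18: Hecke equivariance of the multiplier for a
multiplicative Hecke operator of block E.
-/
import Fermat.Agent.GAL.Mult.Hecke
import Fermat.Agent.GAL.Mult.HeckeBridge
import Fermat.Agent.GAL.Mult.NiceFrac
import Fermat.Agent.GAL.E.HeckeOp

set_option autoImplicit false

namespace Fermat.Agent.GAL.Mult

open UpperHalfPlane ModularCurve AlgebraicCurve CongruenceSubgroup
open Fermat.Agent.S24 Fermat.Agent.S24.B Fermat.Agent.Lib.HeckeHom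
open scoped MatrixGroups

theorem IsMult.heckeOp {N n ℓ : ℕ} [NeZero N] [NeZero n] [NeZero ℓ] (H : E.HeckeOp N ℓ)
    (hℓ : ℓ.Prime) (hℓN : ¬ ℓ ∣ N) {u : FN N} {ψ : Additive (Gamma0 N) →+ ZMod n}
    (h : IsMult N n u ψ) : IsMult N n (H.T u) (heckeHomT hℓ hℓN ψ) := by
  have : Fact ℓ.Prime := ⟨hℓ⟩
  have hreal := HeckeBridge.real_eq_prod_of_niceFrac (ℓ := ℓ) (N := N)
    (fun u => exists_nice_fraction u) u (H.T u) (H.qExpand_T u)
  exact IsMult.hecke (isHeckeFamily_T hℓN) (repT_det_pos ℓ) hreal h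

end Fermat.Agent.GAL.Mult
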