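/-
Cluster GAL, block M (multiplier map), node M19.
The Kummer model `E.W N n` has the cardinality of `Pic⁰[n]`.  The bijection
`u ↦ class of (1/n) div u` is constructed in `Fermat/Agent/NV2/CardW.lean` (block NV2); this file
only restates the result in the namespace of block M.
-/
import Fermat.Agent.GAL.Mult.Defs
import Fermat.Agent.NV2.CardW

set_option autoImplicit false

namespace Fermat.Agent.GAL.Mult

open ModularCurve AlgebraicCurve
open Fermat.Agent.S24

/-! ### M19  PicIso.lean : the Kummer model is `Pic⁰[n]` -/

theorem card_W_eq_card_torsion (N n : ℕ) [NeZero N] (hn : 0 < n) :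
    Nat.card (E.W N n) = Nat.card (Pic0.torsion Kbar (FN N) n) :=
  Fermat.Agent.NV2.card_W_eq_card_torsion N n hn

end Fermat.Agent.GAL.Mult
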