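/-
Cluster GAL, block M (multiplier map), node M20: the multiplier isomorphism
`W N n ≃ Hom_{par,ell}(Γ₀(N), ℤ/n)`, Hecke equivariant, from M17, M18, M19 and a count.
Architect helper269; proof helper133.
-/
import Fermat.Agent.GAL.Mult.Main
import Fermat.Agent.GAL.Mult.MultT
import Fermat.Agent.GAL.Mult.PicIso
import Fermat.Agent.S16.Lift.Count

set_option autoImplicit false

namespace Fermat.Agent.GAL.Mult

open UpperHalfPlane ModularCurve AlgebraicCurve CongruenceSubgroup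
open Fermat.Agent.S24 Fermat.Agent.S24.B Fermat.Agent.Lib.HeckeHom Fermat.Agent.S16.Lift
open scoped MatrixGroups

theorem Package.mem_homPE_of_kills {N n : ℕ} {ψ : Additive (Gamma0 N) →+ ZMod n}
    (h : Kills ψ ModularGroup.S ∧ Kills ψ (ModularGroup.S * ModularGroup.T) ∧
      Kills ψ ModularGroup.T) : ψ ∈ homPE N (ZMod n) := by
  rw [mem_homPE]
  rintro σ (rfl | rfl | rfl) k g hg
  · exact h.1 k g hg
  · exact h.2.1 k g hg
  · exact h.2.2 k g hg

theorem exists_mult_package (N n : ℕ) [NeZero N] [NeZero n]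
    (hcard : Nat.card (homPE N (ZMod n)) ≤ Nat.card (Pic0.torsion Kbar (FN N) n)) :
    ∃ μ : E.W N n →+ (Additive (Gamma0 N) →+ ZMod n),
      Function.Injective μ ∧ (∀ w, μ w ∈ homPE N (ZMod n)) ∧
      (∀ ψ ∈ homPE N (ZMod n), ∃ w, μ w = ψ) ∧
      ∀ (ℓ : ℕ) [NeZero ℓ] (H : E.HeckeOp N ℓ) (hℓ : ℓ.Prime) (hℓN : ¬ ℓ ∣ N) (w : E.W N n),
        μ (H.TW n w) = heckeHomT hℓ hℓN (μ w) := by
  have hn : 0 < n := Nat.pos_of_ne_zero (NeZero.ne n)
  obtain ⟨μ, hmult, hinj, hkills⟩ := exists_multHom N n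
  have hmem : ∀ w, μ w ∈ homPE N (ZMod n) := fun w => Package.mem_homPE_of_kills (hkills w)
  refine ⟨μ, hinj, hmem, ?_, ?_⟩
  · have hfin : Finite (homPE N (ZMod n)) := by
      apply Nat.finite_of_card_ne_zero
      rw [card_homPE N n hn]
      exact pow_ne_zero _ hn.ne'
    let μ' : E.W N n → homPE N (ZMod n) := fun w => ⟨μ w, hmem w⟩
    have hinj' : Function.Injective μ' := fun a b hab => hinj (congrArg Subtype.val hab)
    have hbij : Function.Bijective μ' := by
      apply hinj'.bijective_of_nat_card_le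
      rw [card_W_eq_card_torsion N n hn]
      exact hcard
    intro ψ hψ
    obtain ⟨w, hw⟩ := hbij.2 ⟨ψ, hψ⟩
    exact ⟨w, congrArg Subtype.val hw⟩
  · intro ℓ _ H hℓ hℓN w
    obtain ⟨u, rfl⟩ := E.cls_surjective w
    rw [H.TW_cls u]
    exact (hmult _).unique ((hmult u).heckeOp H hℓ hℓN)

end Fermat.Agent.GAL.Mult
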