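/-
Cluster GAL, block M (multiplier map), architect helper269.  Node M21: the final deliverable of
block M: the multiplier isomorphism `E.W N n ≃+ Hom_{par,ell}(Γ₀(N), ℤ/n)`, Hecke equivariant
(`Fermat.Agent.S36.MultStatement`).
-/
import Fermat.Agent.GAL.Mult.Package
import Fermat.Agent.GAL.Mult.Count
import Fermat.Agent.S36.Defs

set_option autoImplicit false

namespace Fermat.Agent.GAL.Mult

open AlgebraicCurve CongruenceSubgroup
open Fermat.Agent.S24 Fermat.Agent.Lib.HeckeHom Fermat.Agent.S16.Lift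

/-- The multiplier isomorphism (existence form). -/
theorem exists_multEquiv (N n : ℕ) [NeZero N] (hn : 0 < n) :
    ∃ mult : E.W N n ≃+ homPE N (ZMod n),
      ∀ (ℓ : ℕ) [NeZero ℓ] (hℓ : ℓ.Prime) (hℓN : ¬ ℓ ∣ N) (H : E.HeckeOp N ℓ) (x : E.W N n),
        ((mult (H.TW n x) : homPE N (ZMod n)) : Additive (Gamma0 N) →+ ZMod n) =
          heckeHomT hℓ hℓN (mult x).1 := by
  have : NeZero n := ⟨hn.ne'⟩
  obtain ⟨μ, hinj, hmem, hsurj, hT⟩ :=
    exists_mult_package N n (card_homPE_le_card_torsion N n hn)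
  let μ' : E.W N n →+ homPE N (ZMod n) := μ.codRestrict (homPE N (ZMod n)) hmem
  have hbij : Function.Bijective μ' := by
    refine ⟨fun a b hab => hinj (congrArg Subtype.val hab), fun ψ => ?_⟩
    obtain ⟨w, hw⟩ := hsurj ψ.1 ψ.2
    exact ⟨w, Subtype.ext hw⟩
  refine ⟨AddEquiv.ofBijective μ' hbij, fun ℓ _ hℓ hℓN H x => ?_⟩
  exact hT ℓ H hℓ hℓN x

theorem multStatement : Fermat.Agent.S36.MultStatement :=
  fun N n _ hn => exists_multEquiv N n hn

end Fermat.Agent.GAL.Mult
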