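/-
Cluster GAL (helper269).  FINAL ASSEMBLY of the geometric blocks: KL (helper30/39), block E
(helper203), block M + count (helper269):  `KummerPackage N n` and `KummerLevel N n` exist,
unconditionally.
-/
import Fermat.Agent.GAL.Mult.Statement
import Fermat.Agent.GAL.E.Exists
import Fermat.Agent.GAL.KLInputs.Main
import Fermat.Agent.GAL.Main

set_option autoImplicit false

namespace Fermat.Agent.GAL.Mult

open AlgebraicCurve CongruenceSubgroup
open Fermat.Agent.S24 Fermat.Agent.Lib.HeckeHom Fermat.Agent.S16.Lift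

theorem heckeOpStatement : Fermat.Agent.S36.HeckeOpStatement :=
  fun N ℓ _ _ hℓ hℓN => E.nonempty_heckeOp N ℓ hℓ hℓN

/-- The contract of helper46. -/
theorem nonempty_kummerPackage (N : ℕ) [NeZero N] (n : ℕ) (hn : 0 < n) :
    Nonempty (Fermat.Agent.GAL.Tower.KummerPackage N n) := by
  have : NeZero n := ⟨hn.ne'⟩
  obtain ⟨μ, hinj, hmem, hsurj, hT⟩ :=
    exists_mult_package N n (card_homPE_le_card_torsion N n hn)
  exact ⟨E.kummerPackage klStatement N n (E.heckeFam N) μ hinj hmem hsurj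
    (fun ℓ hℓ hℓN w => @hT ℓ ⟨hℓ.ne_zero⟩ _ hℓ hℓN w)⟩

/-- The interface of helper216. -/
theorem nonempty_kummerLevel (N : ℕ) [NeZero N] (n : ℕ) (hn : 0 < n) :
    Nonempty (Fermat.Agent.GAL.KummerLevel N n) := by
  obtain ⟨mult, hT⟩ := exists_multEquiv N n hn
  exact ⟨E.kummerLevel klStatement N n hn (E.heckeFam N) mult
    (fun ℓ hℓ hℓN w => @hT ℓ ⟨hℓ.ne_zero⟩ hℓ hℓN _ w)⟩

theorem kummerStatement : Fermat.Agent.GAL.KummerStatement :=
  fun N _ p hp k => nonempty_kummerLevel N (p ^ k) (pow_pos hp.out.pos k)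

end Fermat.Agent.GAL.Mult
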